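import Fermat.Agent.H38.Doubling
import Mathlib.AlgebraicGeometry.EllipticCurve.DivisionPolynomial.Basic

/-!
# x-coordinates of `Q + P` and `Q - P` on a Weierstrass curve (helper70, S13 / WP2)

For affine points `P ≠ ±Q` on a Weierstrass curve over a field, with `x₁ = x(P)`, `x₂ = x(Q)`:

* `(x(Q+P) + x(Q-P)) (x₂ - x₁)² = 2 x₁x₂(x₁+x₂) + b₂ x₁x₂ + b₄ (x₁+x₂) + b₆`
* `x(Q+P) x(Q-P) (x₂ - x₁)² = x₁²x₂² - b₄ x₁x₂ - b₆ (x₁+x₂) - b₈`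
* `(x₁ - x(Q-P)) (x₁ - x(Q+P)) (x₁ - x₂)² = dblDen(x₁) (x₁ - x₂) - psi3(x₁)`

(`dblDen = Ψ₂², psi3 = Ψ₃` evaluated at `x₁`, see `Fermat.Agent.H38.Doubling`).
-/

set_option autoImplicit false

namespace Fermat.Agent.H70

open WeierstrassCurve WeierstrassCurve.Affine
open Fermat.Agent.H38

variable {F : Type*} [Field F]

/-- The right-hand side of the sum formula. -/
def spSum (W : WeierstrassCurve F) (x₁ x₂ : F) : F :=
  2 * x₂ * x₁ * (x₂ + x₁) + W.b₂ * x₂ * x₁ + W.b₄ * (x₂ + x₁) + W.b₆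

/-- The right-hand side of the product formula. -/
def spProd (W : WeierstrassCurve F) (x₁ x₂ : F) : F :=
  x₂ ^ 2 * x₁ ^ 2 - W.b₄ * x₂ * x₁ - W.b₆ * (x₂ + x₁) - W.b₈

lemma spSum_comm (W : WeierstrassCurve F) (x₁ x₂ : F) : spSum W x₁ x₂ = spSum W x₂ x₁ := by
  simp only [spSum]; ring

lemma spProd_comm (W : WeierstrassCurve F) (x₁ x₂ : F) : spProd W x₁ x₂ = spProd W x₂ x₁ := by
  simp only [spProd]; ring

/-! ## Bridge to Mathlib's division polynomials -/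

lemma dblDen_eq_eval (W : WeierstrassCurve F) (x : F) : dblDen W x = W.Ψ₂Sq.eval x := by
  simp only [dblDen, WeierstrassCurve.Ψ₂Sq, Polynomial.eval_add, Polynomial.eval_mul,
    Polynomial.eval_C, Polynomial.eval_pow, Polynomial.eval_X]

lemma psi3_eq_eval (W : WeierstrassCurve F) (x : F) : psi3 W x = W.Ψ₃.eval x := by
  simp only [psi3, WeierstrassCurve.Ψ₃, Polynomial.eval_add, Polynomial.eval_mul,
    Polynomial.eval_C, Polynomial.eval_pow, Polynomial.eval_X, Polynomial.eval_ofNat]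

lemma dblNum_eq_eval (W : WeierstrassCurve F) (x : F) : dblNum W x = (W.Φ 2).eval x := by
  simp only [dblNum, WeierstrassCurve.Φ_two, Polynomial.eval_sub, Polynomial.eval_mul,
    Polynomial.eval_C, Polynomial.eval_pow, Polynomial.eval_X]

lemma evalEval_ψ₂ (W : WeierstrassCurve F) (x y : F) :
    W.ψ₂.evalEval x y = 2 * y + W.a₁ * x + W.a₃ := by
  rw [WeierstrassCurve.ψ₂, Affine.evalEval_polynomialY]

lemma evalEval_ψ₂_eq_sub_negY (W : WeierstrassCurve F) (x y : F) :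
    W.ψ₂.evalEval x y = y - W.toAffine.negY x y := by
  rw [evalEval_ψ₂]; simp only [negY]; ring

lemma evalEval_ψ₂_sq (W : WeierstrassCurve F) {x y : F} (h : W.toAffine.Equation x y) :
    W.ψ₂.evalEval x y ^ 2 = W.Ψ₂Sq.eval x := by
  rw [← dblDen_eq_eval, dblDen_eq_sq W h, evalEval_ψ₂_eq_sub_negY]

variable [DecidableEq F]

/-- Cleared-denominator form of the chord formula for the `x`-coordinate. -/
lemma addX_slope_mul_sq (W : WeierstrassCurve F) {x₁ x₂ : F} (y₁ y₂ : F) (hx : x₁ ≠ x₂) :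
    W.toAffine.addX x₁ x₂ (W.toAffine.slope x₁ x₂ y₁ y₂) * (x₁ - x₂) ^ 2 =
      (y₁ - y₂) ^ 2 + W.a₁ * (y₁ - y₂) * (x₁ - x₂) - (W.a₂ + x₁ + x₂) * (x₁ - x₂) ^ 2 := by
  rw [Affine.slope_of_X_ne hx]
  simp only [addX]
  have hd : x₁ - x₂ ≠ 0 := sub_ne_zero.mpr hx
  field_simp
  ring

/-- Coordinate form of the sum formula. -/
lemma addX_add_addX_neg (W : WeierstrassCurve F) {x₁ x₂ y₁ y₂ : F}
    (h₁ : W.toAffine.Equation x₁ y₁) (h₂ : W.toAffine.Equation x₂ y₂) (hx : x₁ ≠ x₂) :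
    (W.toAffine.addX x₂ x₁ (W.toAffine.slope x₂ x₁ y₂ y₁) +
      W.toAffine.addX x₂ x₁ (W.toAffine.slope x₂ x₁ y₂ (W.toAffine.negY x₁ y₁))) *
        (x₂ - x₁) ^ 2 = spSum W x₁ x₂ := by
  have k₁ := addX_slope_mul_sq W y₂ y₁ (Ne.symm hx)
  have k₂ := addX_slope_mul_sq W y₂ (W.toAffine.negY x₁ y₁) (Ne.symm hx)
  rw [Affine.equation_iff] at h₁ h₂
  simp only [negY] at k₂ ⊢
  simp only [spSum, WeierstrassCurve.b₂, WeierstrassCurve.b₄, WeierstrassCurve.b₆]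
  linear_combination k₁ + k₂ + 2 * h₁ + 2 * h₂

/-- Coordinate form of the product formula. -/
lemma addX_mul_addX_neg (W : WeierstrassCurve F) {x₁ x₂ y₁ y₂ : F}
    (h₁ : W.toAffine.Equation x₁ y₁) (h₂ : W.toAffine.Equation x₂ y₂) (hx : x₁ ≠ x₂) :
    W.toAffine.addX x₂ x₁ (W.toAffine.slope x₂ x₁ y₂ y₁) *
      W.toAffine.addX x₂ x₁ (W.toAffine.slope x₂ x₁ y₂ (W.toAffine.negY x₁ y₁)) *
        (x₂ - x₁) ^ 2 = spProd W x₁ x₂ := by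
  have k₁ := addX_slope_mul_sq W y₂ y₁ (Ne.symm hx)
  have k₂ := addX_slope_mul_sq W y₂ (W.toAffine.negY x₁ y₁) (Ne.symm hx)
  have hd : (x₂ - x₁) ^ 2 ≠ 0 := pow_ne_zero _ (sub_ne_zero.mpr (Ne.symm hx))
  rw [Affine.equation_iff] at h₁ h₂
  simp only [negY] at k₂ ⊢
  apply mul_right_cancel₀ hd
  simp only [spProd, WeierstrassCurve.b₄, WeierstrassCurve.b₆, WeierstrassCurve.b₈]
  generalize W.toAffine.addX x₂ x₁ (W.toAffine.slope x₂ x₁ y₂ y₁) = Xp at k₁ ⊢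
  generalize W.toAffine.addX x₂ x₁ (W.toAffine.slope x₂ x₁ y₂ (-y₁ - W.toAffine.a₁ * x₁ -
    W.toAffine.a₃)) = Xm at k₂ ⊢
  linear_combination (Xm * (x₂ - x₁) ^ 2) * k₁ +
    ((y₂ - y₁) ^ 2 + W.a₁ * (y₂ - y₁) * (x₂ - x₁) - (W.a₂ + x₂ + x₁) * (x₂ - x₁) ^ 2) * k₂ +
    (-x₁^3 + 2*x₁^2*x₂ - x₁^2*W.a₂ + x₁*y₁*W.a₁ + 2*x₁*x₂^2 + x₁*x₂*W.a₁^2 + 4*x₁*x₂*W.a₂
      + x₁*W.a₁*W.a₃ + x₁*W.a₄ + y₁^2 + y₁*W.a₃ - 2*x₂^3 - x₂^2*W.a₁^2 - 2*x₂^2*W.a₂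
      - 2*x₂*y₂*W.a₁ - x₂*W.a₁*W.a₃ - 2*y₂^2 - 2*y₂*W.a₃ + W.a₆) * h₁ +
    (-4*x₁^3 + 2*x₁^2*x₂ - x₁^2*W.a₁^2 - 4*x₁^2*W.a₂ + 2*x₁*x₂^2 + x₁*x₂*W.a₁^2
      + 4*x₁*x₂*W.a₂ - x₁*W.a₁*W.a₃ - 2*x₁*W.a₄ - x₂^3 - x₂^2*W.a₂ + x₂*y₂*W.a₁
      + x₂*W.a₁*W.a₃ + x₂*W.a₄ + y₂^2 + y₂*W.a₃ - W.a₆) * h₂

/-! ## Point-level statements -/

lemma xc_ne_imp_add_ne_zero (W : WeierstrassCurve F) {P Q : W.toAffine.Point}
    (hne : xc W P ≠ xc W Q) : Q + P ≠ 0 := by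
  intro h
  have : Q = -P := eq_neg_of_add_eq_zero_left h
  rw [this, xc_neg] at hne
  exact hne rfl

lemma xc_ne_imp_sub_ne_zero (W : WeierstrassCurve F) {P Q : W.toAffine.Point}
    (hne : xc W P ≠ xc W Q) : Q - P ≠ 0 := by
  intro h
  have : Q = P := sub_eq_zero.mp h
  rw [this] at hne
  exact hne rfl

/-- **Sum formula.** -/
theorem xc_add_add_xc_sub (W : WeierstrassCurve F) {P Q : W.toAffine.Point} (hP : P ≠ 0)
    (hQ : Q ≠ 0) (hne : xc W P ≠ xc W Q) :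
    (xc W (Q + P) + xc W (Q - P)) * (xc W Q - xc W P) ^ 2 = spSum W (xc W P) (xc W Q) := by
  obtain ⟨x₁, y₁, h₁, rfl⟩ := exists_some_of_ne_zero W hP
  obtain ⟨x₂, y₂, h₂, rfl⟩ := exists_some_of_ne_zero W hQ
  simp only [xc_some] at hne ⊢
  rw [sub_eq_add_neg, Point.neg_some, Point.add_of_X_ne (Ne.symm hne),
    Point.add_of_X_ne (Ne.symm hne), xc_some, xc_some]
  exact addX_add_addX_neg W h₁.1 h₂.1 hne

/-- **Product formula.** -/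
theorem xc_add_mul_xc_sub (W : WeierstrassCurve F) {P Q : W.toAffine.Point} (hP : P ≠ 0)
    (hQ : Q ≠ 0) (hne : xc W P ≠ xc W Q) :
    xc W (Q + P) * xc W (Q - P) * (xc W Q - xc W P) ^ 2 = spProd W (xc W P) (xc W Q) := by
  obtain ⟨x₁, y₁, h₁, rfl⟩ := exists_some_of_ne_zero W hP
  obtain ⟨x₂, y₂, h₂, rfl⟩ := exists_some_of_ne_zero W hQ
  simp only [xc_some] at hne ⊢
  rw [sub_eq_add_neg, Point.neg_some, Point.add_of_X_ne (Ne.symm hne),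
    Point.add_of_X_ne (Ne.symm hne), xc_some, xc_some]
  exact addX_mul_addX_neg W h₁.1 h₂.1 hne

/-- **(PR)** `(x₁ - x(Q-P)) (x₁ - x(Q+P)) (x₁ - x₂)² = Ψ₂²(x₁) (x₁ - x₂) - Ψ₃(x₁)`. -/
theorem xc_sub_mul_xc_sub (W : WeierstrassCurve F) {P Q : W.toAffine.Point} (hP : P ≠ 0)
    (hQ : Q ≠ 0) (hne : xc W P ≠ xc W Q) :
    (xc W P - xc W (Q - P)) * (xc W P - xc W (Q + P)) * (xc W P - xc W Q) ^ 2 =
      dblDen W (xc W P) * (xc W P - xc W Q) - psi3 W (xc W P) := by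
  have hs := xc_add_add_xc_sub W hP hQ hne
  have hp := xc_add_mul_xc_sub W hP hQ hne
  simp only [spSum, spProd, dblDen, psi3] at *
  linear_combination (-xc W P) * hs + hp

/-! ## The same statements for explicit affine points, in Mathlib's vocabulary -/

/-- **(SP-sum)**, explicit form. -/
theorem some_add_some_sum (W : WeierstrassCurve F) {x₁ y₁ x₂ y₂ x₃ y₃ x₄ y₄ : F}
    {h₁ : W.toAffine.Nonsingular x₁ y₁} {h₂ : W.toAffine.Nonsingular x₂ y₂}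
    {h₃ : W.toAffine.Nonsingular x₃ y₃} {h₄ : W.toAffine.Nonsingular x₄ y₄} (hx : x₁ ≠ x₂)
    (hadd : Point.some x₂ y₂ h₂ + Point.some x₁ y₁ h₁ = Point.some x₃ y₃ h₃)
    (hsub : Point.some x₂ y₂ h₂ - Point.some x₁ y₁ h₁ = Point.some x₄ y₄ h₄) :
    (x₃ + x₄) * (x₂ - x₁) ^ 2 =
      2 * x₂ * x₁ * (x₂ + x₁) + W.b₂ * x₂ * x₁ + W.b₄ * (x₂ + x₁) + W.b₆ := by
  have h := xc_add_add_xc_sub W (Point.some_ne_zero h₁) (Point.some_ne_zero h₂)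
    (by simpa using hx)
  rw [hadd, hsub] at h
  simpa [spSum] using h

/-- **(SP-prod)**, explicit form. -/
theorem some_add_some_prod (W : WeierstrassCurve F) {x₁ y₁ x₂ y₂ x₃ y₃ x₄ y₄ : F}
    {h₁ : W.toAffine.Nonsingular x₁ y₁} {h₂ : W.toAffine.Nonsingular x₂ y₂}
    {h₃ : W.toAffine.Nonsingular x₃ y₃} {h₄ : W.toAffine.Nonsingular x₄ y₄} (hx : x₁ ≠ x₂)
    (hadd : Point.some x₂ y₂ h₂ + Point.some x₁ y₁ h₁ = Point.some x₃ y₃ h₃)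
    (hsub : Point.some x₂ y₂ h₂ - Point.some x₁ y₁ h₁ = Point.some x₄ y₄ h₄) :
    x₃ * x₄ * (x₂ - x₁) ^ 2 =
      x₂ ^ 2 * x₁ ^ 2 - W.b₄ * x₂ * x₁ - W.b₆ * (x₂ + x₁) - W.b₈ := by
  have h := xc_add_mul_xc_sub W (Point.some_ne_zero h₁) (Point.some_ne_zero h₂)
    (by simpa using hx)
  rw [hadd, hsub] at h
  simpa [spProd] using h

/-- **(PR)**, explicit form:
`(x₁ - x(Q-P)) (x₁ - x(Q+P)) (x₁ - x₂)² = ψ₂(P)² (x₁ - x₂) - Ψ₃(x₁)`. -/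
theorem some_add_some_PR (W : WeierstrassCurve F) {x₁ y₁ x₂ y₂ x₃ y₃ x₄ y₄ : F}
    {h₁ : W.toAffine.Nonsingular x₁ y₁} {h₂ : W.toAffine.Nonsingular x₂ y₂}
    {h₃ : W.toAffine.Nonsingular x₃ y₃} {h₄ : W.toAffine.Nonsingular x₄ y₄} (hx : x₁ ≠ x₂)
    (hadd : Point.some x₂ y₂ h₂ + Point.some x₁ y₁ h₁ = Point.some x₃ y₃ h₃)
    (hsub : Point.some x₂ y₂ h₂ - Point.some x₁ y₁ h₁ = Point.some x₄ y₄ h₄) :
    (x₁ - x₄) * (x₁ - x₃) * (x₁ - x₂) ^ 2 =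
      W.ψ₂.evalEval x₁ y₁ ^ 2 * (x₁ - x₂) - W.Ψ₃.eval x₁ := by
  have h := xc_sub_mul_xc_sub W (Point.some_ne_zero h₁) (Point.some_ne_zero h₂)
    (by simpa using hx)
  rw [hadd, hsub] at h
  rw [evalEval_ψ₂_sq W h₁.1, ← dblDen_eq_eval, ← psi3_eq_eval]
  simpa using h

/-! ## Tripling (TRIP), duplication (DUP) and the 4-division polynomial (COMP2) -/

section triple

variable {F : Type*} [Field F]

/-- `preΨ₄ = Ψ₂² (2x³ - b₄x - b₆) - Φ₂ (6x² + b₂x + b₄)`. -/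
lemma preΨ₄_eval_eq (W : WeierstrassCurve F) (x : F) :
    W.preΨ₄.eval x =
      dblDen W x * (2 * x ^ 3 - W.b₄ * x - W.b₆) - dblNum W x * (6 * x ^ 2 + W.b₂ * x + W.b₄) := by
  simp only [WeierstrassCurve.preΨ₄, dblDen, dblNum, Polynomial.eval_add, Polynomial.eval_mul,
    Polynomial.eval_C, Polynomial.eval_pow, Polynomial.eval_X, Polynomial.eval_ofNat]
  linear_combination (x ^ 2) * W.b_relation

/-- **(COMP2)**, coordinate form: `preΨ₄(x) = ψ₂(P)³ ψ₂(2P)`. -/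
lemma preΨ₄_eval_eq_of_slope (W : WeierstrassCurve F) {x y ℓ : F}
    (h : W.toAffine.Equation x y)
    (hℓ : ℓ * (2 * y + W.a₁ * x + W.a₃) = 3 * x ^ 2 + 2 * W.a₂ * x + W.a₄ - W.a₁ * y) :
    W.preΨ₄.eval x = (2 * y + W.a₁ * x + W.a₃) ^ 3 *
      (2 * W.toAffine.addY x x y ℓ + W.a₁ * W.toAffine.addX x x ℓ + W.a₃) := by
  rw [Affine.equation_iff] at h
  simp only [WeierstrassCurve.preΨ₄, Polynomial.eval_add, Polynomial.eval_mul,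
    Polynomial.eval_C, Polynomial.eval_pow, Polynomial.eval_X,
    Polynomial.eval_ofNat, addY, negAddY, addX, negY, WeierstrassCurve.b₂, WeierstrassCurve.b₄,
    WeierstrassCurve.b₆, WeierstrassCurve.b₈]
  linear_combination
    (-(-18*x^4 - 6*x^3*ℓ*W.a₁ - 3*x^3*W.a₁^2 - 24*x^3*W.a₂ - 12*x^2*y*ℓ + 18*x^2*y*W.a₁
      - 2*x^2*ℓ^2*W.a₁^2 - 3*x^2*ℓ*W.a₁^3 - 4*x^2*ℓ*W.a₁*W.a₂ - 6*x^2*ℓ*W.a₃ - x^2*W.a₁^4
      - 4*x^2*W.a₁^2*W.a₂ + 3*x^2*W.a₁*W.a₃ - 8*x^2*W.a₂^2 - 12*x^2*W.a₄ + 24*x*y^2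
      - 8*x*y*ℓ^2*W.a₁ - 10*x*y*ℓ*W.a₁^2 - 8*x*y*ℓ*W.a₂ - x*y*W.a₁^3 + 4*x*y*W.a₁*W.a₂
      + 24*x*y*W.a₃ - 4*x*ℓ^2*W.a₁*W.a₃ - 6*x*ℓ*W.a₁^2*W.a₃ - 2*x*ℓ*W.a₁*W.a₄
      - 4*x*ℓ*W.a₂*W.a₃ - 2*x*W.a₁^3*W.a₃ - 3*x*W.a₁^2*W.a₄ - 2*x*W.a₁*W.a₂*W.a₃
      - 8*x*W.a₂*W.a₄ + 6*x*W.a₃^2 - 8*y^2*ℓ^2 - 8*y^2*ℓ*W.a₁ + 8*y^2*W.a₂ - 8*y*ℓ^2*W.a₃
      - 10*y*ℓ*W.a₁*W.a₃ - 4*y*ℓ*W.a₄ - y*W.a₁^2*W.a₃ - 2*y*W.a₁*W.a₄ + 8*y*W.a₂*W.a₃
      - 2*ℓ^2*W.a₃^2 - 3*ℓ*W.a₁*W.a₃^2 - 2*ℓ*W.a₃*W.a₄ - W.a₁^2*W.a₃^2 - 3*W.a₁*W.a₃*W.a₄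
      + 2*W.a₂*W.a₃^2 - 2*W.a₄^2)) * hℓ +
    (-(56*x^3 + 10*x^2*W.a₁^2 + 56*x^2*W.a₂ - 16*x*y*W.a₁ + x*W.a₁^4 + 8*x*W.a₁^2*W.a₂
      - 4*x*W.a₁*W.a₃ + 16*x*W.a₂^2 + 8*x*W.a₄ - 16*y^2 - 16*y*W.a₃ + W.a₁^3*W.a₃
      + 2*W.a₁^2*W.a₄ + 4*W.a₁*W.a₂*W.a₃ + 8*W.a₂*W.a₄ - 8*W.a₃^2 - 16*W.a₆)) * h

variable [DecidableEq F]

/-- **(DUP)** `(x(P) - x(2P)) Ψ₂²(x(P)) = Ψ₃(x(P))`. -/
theorem xc_sub_xc_two_nsmul (W : WeierstrassCurve F) {P : W.toAffine.Point} (hP : P ≠ 0)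
    (h2 : 2 • P ≠ 0) :
    (xc W P - xc W (2 • P)) * W.Ψ₂Sq.eval (xc W P) = W.Ψ₃.eval (xc W P) := by
  have h := xc_two_nsmul W hP h2
  rw [← dblDen_eq_eval, ← psi3_eq_eval, psi3_eq]
  linear_combination -h

/-- For `P ≠ 0` with `3 • P ≠ 0` and `2 • P ≠ 0`, the points `P` and `2 • P` have different
`x`-coordinates. -/
lemma xc_ne_xc_two_nsmul (W : WeierstrassCurve F) {P : W.toAffine.Point} (hP : P ≠ 0)
    (h2 : 2 • P ≠ 0) (h3 : 3 • P ≠ 0) : xc W P ≠ xc W (2 • P) := by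
  intro h
  rcases eq_or_eq_neg_of_xc_eq W hP h2 h with h' | h'
  · apply hP
    have : 2 • P - P = 0 := by rw [← h', sub_self]
    rwa [two_nsmul, add_sub_cancel_right] at this
  · apply h3
    have : 2 • P + P = 0 := by
      rw [eq_neg_iff_add_eq_zero] at h'
      rw [add_comm]; exact h'
    rwa [show (3 : ℕ) • P = 2 • P + P from succ_nsmul P 2]

/-- **(TRIP)** `(x(P) - x(3P)) Ψ₃(x(P))² = Ψ₂²(x(P)) preΨ₄(x(P))` for `P ≠ 0`, `3 • P ≠ 0`. -/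
theorem xc_sub_xc_three_nsmul (W : WeierstrassCurve F) {P : W.toAffine.Point} (hP : P ≠ 0)
    (h3 : 3 • P ≠ 0) :
    (xc W P - xc W (3 • P)) * W.Ψ₃.eval (xc W P) ^ 2 =
      W.Ψ₂Sq.eval (xc W P) * W.preΨ₄.eval (xc W P) := by
  by_cases h2 : 2 • P = 0
  · have h3' : 3 • P = P := by
      rw [show (3 : ℕ) • P = 2 • P + P from succ_nsmul P 2, h2, zero_add]
    have hD : W.Ψ₂Sq.eval (xc W P) = 0 := by
      rw [← dblDen_eq_eval]; exact (two_nsmul_eq_zero_iff W hP).1 h2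
    rw [h3', sub_self, zero_mul, hD, zero_mul]
  · have hne := xc_ne_xc_two_nsmul W hP h2 h3
    have hdup := xc_two_nsmul W hP h2
    have hsum := xc_add_add_xc_sub W hP h2 hne
    have e1 : 2 • P + P = 3 • P := (succ_nsmul P 2).symm
    have e2 : 2 • P - P = P := by rw [two_nsmul, add_sub_cancel_right]
    rw [e1, e2] at hsum
    rw [← dblDen_eq_eval, ← psi3_eq_eval, preΨ₄_eval_eq, psi3_eq]
    simp only [spSum] at hsum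
    generalize xc W (3 • P) = x₃ at hsum ⊢
    generalize xc W (2 • P) = x₂ at hsum hdup ⊢
    generalize xc W P = x at hsum hdup ⊢
    generalize dblDen W x = D at hdup ⊢
    generalize dblNum W x = N at hdup ⊢
    linear_combination (-D ^ 2) * hsum +
      ((x - x₃) * (2 * x * D - N - x₂ * D) - D * (6 * x ^ 2 + W.b₂ * x + W.b₄)) * hdup

/-- **(COMP2)**, explicit form: if `2 • (x, y) = (x', y')` then
`preΨ₄(x) = ψ₂(x, y)³ ψ₂(x', y')`, hence `ψ₄(x, y) = ψ₂(x, y)⁴ ψ₂(x', y')`. -/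
theorem preΨ₄_eval_eq_of_two_nsmul (W : WeierstrassCurve F) {x y x' y' : F}
    {h : W.toAffine.Nonsingular x y} {h' : W.toAffine.Nonsingular x' y'}
    (h2 : (2 : ℕ) • Point.some x y h = Point.some x' y' h') :
    W.preΨ₄.eval x = W.ψ₂.evalEval x y ^ 3 * W.ψ₂.evalEval x' y' := by
  have hy : y ≠ W.toAffine.negY x y := by
    intro hy
    rw [two_nsmul, Point.add_self_of_Y_eq hy] at h2
    exact Point.some_ne_zero h' h2.symm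
  rw [two_nsmul, Point.add_self_of_Y_ne hy] at h2
  have hx' : x' = W.toAffine.addX x x (W.toAffine.slope x x y y) := by
    injection h2 with hx _; exact hx.symm
  have hy' : y' = W.toAffine.addY x x y (W.toAffine.slope x x y y) := by
    injection h2 with _ hy; exact hy.symm
  have hψ : 2 * y + W.a₁ * x + W.a₃ ≠ 0 := by
    intro h0
    apply hy
    simp only [negY]
    linear_combination h0
  have hℓ : W.toAffine.slope x x y y * (2 * y + W.a₁ * x + W.a₃) =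
      3 * x ^ 2 + 2 * W.a₂ * x + W.a₄ - W.a₁ * y := by
    rw [Affine.slope_of_Y_ne rfl hy]
    have : y - W.toAffine.negY x y = 2 * y + W.a₁ * x + W.a₃ := by simp only [negY]; ring
    rw [this, div_mul_cancel₀ _ hψ]
  rw [evalEval_ψ₂, evalEval_ψ₂, hx', hy']
  exact preΨ₄_eval_eq_of_slope W h.1 hℓ

/-- `ψ₄(x, y) = ψ₂(x, y)⁴ ψ₂(2 • (x, y))`. -/
theorem evalEval_ψ_four_of_two_nsmul (W : WeierstrassCurve F) {x y x' y' : F}
    {h : W.toAffine.Nonsingular x y} {h' : W.toAffine.Nonsingular x' y'}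
    (h2 : (2 : ℕ) • Point.some x y h = Point.some x' y' h') :
    (W.ψ 4).evalEval x y = W.ψ₂.evalEval x y ^ 4 * W.ψ₂.evalEval x' y' := by
  have := preΨ₄_eval_eq_of_two_nsmul W h2
  rw [WeierstrassCurve.ψ_four, Polynomial.evalEval_mul, Polynomial.evalEval_C, this]
  ring

/-- **(DUP)**, explicit form. -/
theorem some_two_nsmul_DUP (W : WeierstrassCurve F) {x y x' y' : F}
    {h : W.toAffine.Nonsingular x y} {h' : W.toAffine.Nonsingular x' y'}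
    (h2 : (2 : ℕ) • Point.some x y h = Point.some x' y' h') :
    (x - x') * W.Ψ₂Sq.eval x = W.Ψ₃.eval x := by
  have := xc_sub_xc_two_nsmul W (Point.some_ne_zero h) (by rw [h2]; exact Point.some_ne_zero h')
  rw [h2] at this
  simpa using this

/-- **(TRIP)**, explicit form. -/
theorem some_three_nsmul_TRIP (W : WeierstrassCurve F) {x y x' y' : F}
    {h : W.toAffine.Nonsingular x y} {h' : W.toAffine.Nonsingular x' y'}
    (h3 : (3 : ℕ) • Point.some x y h = Point.some x' y' h') :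
    (x - x') * W.Ψ₃.eval x ^ 2 = W.Ψ₂Sq.eval x * W.preΨ₄.eval x := by
  have := xc_sub_xc_three_nsmul W (Point.some_ne_zero h)
    (by rw [h3]; exact Point.some_ne_zero h')
  rw [h3] at this
  simpa using this

end triple

end Fermat.Agent.H70
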