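import Mathlib
import Fermat.Agent.H38.FiveCard
import Fermat.Prelude.Def_FLTPrelim_GaloisRep
import Fermat.Prelude.Def_FLTPrelim_FreyPackage

/-!
# Counting `p`-torsion from the division polynomial (helper70, S13 / WP3c)

Corollaries of the division-polynomial theorem (taken as explicit hypotheses `hDPa`, `hDPb`):

* `ncard_torsion_le`: at most `p²` points are killed by an odd `p`;
* `exists_torsion_point`: over an algebraically closed field there is a nonzero point killed by `p`;
* transport to the prelude type `Submodule.torsionBy ℤ (E⁄ℚ̄).Point p`, and to the Frey curve.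
-/

set_option autoImplicit false
set_option linter.unusedSectionVars false

namespace Fermat.Agent.H70

open WeierstrassCurve WeierstrassCurve.Affine Polynomial
open Fermat.Agent.H38

section generic

variable {F : Type*} [Field F] [DecidableEq F]

/-- A set of points whose nonzero members have `x`-coordinates among the roots of a nonzero
polynomial is contained in a finite union of fibres of `x`. -/
lemma subset_of_xc_root (W : WeierstrassCurve F) (S : Set W.toAffine.Point) (f : F[X])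
    (hf : f ≠ 0) (h : ∀ P ∈ S, P ≠ 0 → f.eval (xc W P) = 0) :
    S ⊆ {0} ∪ ⋃ x ∈ f.roots.toFinset, {P : W.toAffine.Point | P ≠ 0 ∧ xc W P = x} := by
  intro P hP
  by_cases hP0 : P = 0
  · left; exact hP0
  · right
    simp only [Set.mem_iUnion, Set.mem_ofPred_eq, exists_prop]
    refine ⟨xc W P, ?_, hP0, rfl⟩
    rw [Multiset.mem_toFinset, mem_roots hf, IsRoot]
    exact h P hP hP0

theorem finite_of_xc_root (W : WeierstrassCurve F) (S : Set W.toAffine.Point) (f : F[X])
    (hf : f ≠ 0) (h : ∀ P ∈ S, P ≠ 0 → f.eval (xc W P) = 0) : S.Finite := by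
  refine Set.Finite.subset ?_ (subset_of_xc_root W S f hf h)
  refine (Set.finite_singleton 0).union ?_
  exact Set.Finite.biUnion (Finset.finite_toSet _) (fun x _ => fiber_finite W x)

open Classical in
theorem ncard_le_of_xc_root (W : WeierstrassCurve F) (S : Set W.toAffine.Point) (f : F[X])
    (hf : f ≠ 0) (h : ∀ P ∈ S, P ≠ 0 → f.eval (xc W P) = 0) :
    S.ncard ≤ 2 * f.natDegree + 1 := by
  have hfin := finite_of_xc_root W S f hf h
  set s : Finset W.toAffine.Point := hfin.toFinset with hs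
  have hcard : S.ncard = s.card := Set.ncard_eq_toFinset_card _ hfin
  rw [hcard]
  set s' : Finset W.toAffine.Point := s.erase 0 with hs'
  have h1 : s.card ≤ s'.card + 1 := by
    rw [hs']
    have := Finset.pred_card_le_card_erase (s := s) (a := (0 : W.toAffine.Point))
    omega
  have himg : s'.image (xc W) ⊆ f.roots.toFinset := by
    intro x hx
    rw [Finset.mem_image] at hx
    obtain ⟨P, hP, rfl⟩ := hx
    rw [hs', Finset.mem_erase, hs, Set.Finite.mem_toFinset] at hP
    rw [Multiset.mem_toFinset, mem_roots hf, IsRoot]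
    exact h P hP.2 hP.1
  have h2 : s'.card ≤ 2 * (s'.image (xc W)).card := by
    apply Finset.card_le_mul_card_image
    intro x hx
    rw [Finset.mem_image] at hx
    obtain ⟨P₀, hP₀, rfl⟩ := hx
    have hP₀0 : P₀ ≠ 0 := by
      rw [hs', Finset.mem_erase] at hP₀
      exact hP₀.1
    have hsub : (s'.filter fun P => xc W P = xc W P₀) ⊆ {P₀, -P₀} := by
      intro P hP
      rw [Finset.mem_filter, hs', Finset.mem_erase] at hP
      have := fiber_subset_pair W hP₀0 ⟨hP.1.1, hP.2⟩
      simpa using this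
    exact (Finset.card_le_card hsub).trans Finset.card_le_two
  have h3 : (s'.image (xc W)).card ≤ f.natDegree :=
    (Finset.card_le_card himg).trans
      ((Multiset.toFinset_card_le _).trans (card_roots' _))
  omega

/-- For odd `p`: `2 * deg (preΨ' p) + 1 ≤ p²`. -/
lemma two_mul_natDegree_preΨ'_add_one_le (W : WeierstrassCurve F) {p : ℕ} (hp : Odd p) :
    2 * (W.preΨ' p).natDegree + 1 ≤ p ^ 2 := by
  have h := W.natDegree_preΨ'_le p
  have hne : ¬ Even p := Nat.not_even_iff_odd.mpr hp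
  rw [if_neg hne] at h
  have hpos : 1 ≤ p ^ 2 := Nat.one_le_pow _ _ hp.pos
  omega

/-- **Counting.** If the `x`-coordinate of every nonzero point killed by the odd number `p` is a
root of `preΨ' p`, then at most `p²` points are killed by `p`. -/
theorem ncard_torsion_le (W : WeierstrassCurve F) {p : ℕ} (hp : Odd p) (hpF : (p : F) ≠ 0)
    (hDPa : ∀ P : W.toAffine.Point, P ≠ 0 → p • P = 0 → (W.preΨ' p).eval (xc W P) = 0) :
    {P : W.toAffine.Point | p • P = 0}.Finite ∧
      {P : W.toAffine.Point | p • P = 0}.ncard ≤ p ^ 2 := by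
  have hf : W.preΨ' p ≠ 0 := W.preΨ'_ne_zero hpF
  have h : ∀ P ∈ {P : W.toAffine.Point | p • P = 0}, P ≠ 0 → (W.preΨ' p).eval (xc W P) = 0 :=
    fun P hP hP0 => hDPa P hP0 hP
  exact ⟨finite_of_xc_root W _ _ hf h,
    (ncard_le_of_xc_root W _ _ hf h).trans (two_mul_natDegree_preΨ'_add_one_le W hp)⟩

/-- **Existence.** Over an algebraically closed field, if every point whose `x`-coordinate is a
root of `preΨ' p` is killed by `p`, then there is a nonzero point killed by `p`. -/
theorem exists_torsion_point [IsAlgClosed F] (W : WeierstrassCurve F) (hΔ : W.Δ ≠ 0) {p : ℕ}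
    (hp2 : 2 < p) (hpF : (p : F) ≠ 0)
    (hDPb : ∀ (x y : F) (h : W.toAffine.Nonsingular x y), (W.preΨ' p).eval x = 0 →
      p • Point.some x y h = 0) :
    ∃ P : W.toAffine.Point, P ≠ 0 ∧ p • P = 0 := by
  have hpos : 0 < (W.preΨ' p).natDegree := W.natDegree_preΨ'_pos hp2 hpF
  have hdeg : (W.preΨ' p).degree ≠ 0 := (natDegree_pos_iff_degree_pos.mp hpos).ne'
  obtain ⟨x, hx⟩ := IsAlgClosed.exists_root _ hdeg
  obtain ⟨y, hy⟩ := exists_equation W x
  have hns : W.toAffine.Nonsingular x y := (equation_iff_nonsingular_of_Δ_ne_zero hΔ).mp hy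
  exact ⟨Point.some x y hns, Point.some_ne_zero _, hDPb x y hns hx⟩

end generic

/-! ## Transport to `Submodule.torsionBy ℤ (E⁄ℚ̄).Point p` -/

section transport

variable (E : WeierstrassCurve ℚ)

lemma mem_torsionBy_natCast_iff (n : ℕ) (P : (E.toAffine⁄(AlgebraicClosure ℚ)).Point) :
    P ∈ Submodule.torsionBy ℤ (E.toAffine⁄(AlgebraicClosure ℚ)).Point ((n : ℕ) : ℤ) ↔
      n • P = 0 := by
  rw [Submodule.mem_torsionBy_iff, natCast_zsmul]

lemma baseChange_Δ_ne_zero (hΔ : E.Δ ≠ 0) : (E.toAffine⁄(AlgebraicClosure ℚ)).Δ ≠ 0 := by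
  change (E.map (algebraMap ℚ (AlgebraicClosure ℚ))).Δ ≠ 0
  rw [WeierstrassCurve.map_Δ]
  exact (map_ne_zero_iff _ (algebraMap ℚ (AlgebraicClosure ℚ)).injective).mpr hΔ

/-- `E[p](ℚ̄)` is nontrivial, given direction (b) of the division-polynomial theorem. -/
theorem nontrivial_torsionBy_of_DP (hΔ : E.Δ ≠ 0) {p : ℕ} (hp2 : 2 < p)
    (hDPb : ∀ (x y : AlgebraicClosure ℚ)
      (h : (E.toAffine⁄(AlgebraicClosure ℚ)).Nonsingular x y),
      ((E.toAffine⁄(AlgebraicClosure ℚ)).preΨ' p).eval x = 0 → p • Point.some x y h = 0) :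
    Nontrivial (Submodule.torsionBy ℤ (E.toAffine⁄(AlgebraicClosure ℚ)).Point ((p : ℕ) : ℤ)) := by
  have hpF : ((p : ℕ) : AlgebraicClosure ℚ) ≠ 0 := by
    exact_mod_cast (Nat.cast_ne_zero (R := AlgebraicClosure ℚ)).mpr (by omega)
  obtain ⟨P, hP0, hPp⟩ := exists_torsion_point (E.toAffine⁄(AlgebraicClosure ℚ))
    (baseChange_Δ_ne_zero E hΔ) hp2 hpF hDPb
  refine ⟨⟨⟨P, (mem_torsionBy_natCast_iff E p P).mpr hPp⟩, 0, ?_⟩⟩
  intro h
  exact hP0 (congrArg Subtype.val h)

/-- `E[p](ℚ̄)` is finite with at most `p²` elements, given direction (a) of the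
division-polynomial theorem. -/
theorem card_torsionBy_le_of_DP {p : ℕ} (hp : Odd p)
    (hDPa : ∀ P : (E.toAffine⁄(AlgebraicClosure ℚ)).Point, P ≠ 0 → p • P = 0 →
      ((E.toAffine⁄(AlgebraicClosure ℚ)).preΨ' p).eval (xc _ P) = 0) :
    Finite (Submodule.torsionBy ℤ (E.toAffine⁄(AlgebraicClosure ℚ)).Point ((p : ℕ) : ℤ)) ∧
      Nat.card (Submodule.torsionBy ℤ (E.toAffine⁄(AlgebraicClosure ℚ)).Point ((p : ℕ) : ℤ))
        ≤ p ^ 2 := by
  have hpF : ((p : ℕ) : AlgebraicClosure ℚ) ≠ 0 := by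
    exact_mod_cast (Nat.cast_ne_zero (R := AlgebraicClosure ℚ)).mpr hp.pos.ne'
  obtain ⟨hfin, hcard⟩ := ncard_torsion_le (E.toAffine⁄(AlgebraicClosure ℚ)) hp hpF hDPa
  have hset : ((Submodule.torsionBy ℤ (E.toAffine⁄(AlgebraicClosure ℚ)).Point ((p : ℕ) : ℤ) :
      Submodule ℤ _) : Set (E.toAffine⁄(AlgebraicClosure ℚ)).Point) =
      {P | p • P = 0} := by
    ext P
    exact mem_torsionBy_natCast_iff E p P
  constructor
  · have : Finite ↥({P : (E.toAffine⁄(AlgebraicClosure ℚ)).Point | p • P = 0}) := hfin.to_subtype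
    rw [← hset] at this
    exact this
  · have h1 : Nat.card (Submodule.torsionBy ℤ (E.toAffine⁄(AlgebraicClosure ℚ)).Point
        ((p : ℕ) : ℤ)) = Set.ncard ((Submodule.torsionBy ℤ
          (E.toAffine⁄(AlgebraicClosure ℚ)).Point ((p : ℕ) : ℤ) : Submodule ℤ _) :
          Set (E.toAffine⁄(AlgebraicClosure ℚ)).Point) := rfl
    rw [h1, hset]
    exact hcard

end transport

/-! ## The Frey curve -/

section frey

theorem freyCurve_Δ_eq (P : FreyPackage) :
    P.freyCurve.Δ = ((P.a : ℚ) * P.b * P.c) ^ (2 * P.p) / 2 ^ 8 := by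
  have hc : (P.c : ℚ) ^ P.p = (P.a : ℚ) ^ P.p + (P.b : ℚ) ^ P.p := by
    have := congrArg (Int.cast : ℤ → ℚ) P.hFLT
    push_cast at this
    exact this.symm
  rw [mul_pow, mul_pow, pow_mul', pow_mul', pow_mul', hc]
  simp only [FreyPackage.freyCurve, WeierstrassCurve.Δ, WeierstrassCurve.b₂, WeierstrassCurve.b₄,
    WeierstrassCurve.b₆, WeierstrassCurve.b₈]
  ring

theorem freyCurve_Δ_ne_zero (P : FreyPackage) : P.freyCurve.Δ ≠ 0 := by
  rw [freyCurve_Δ_eq]
  have h : ((P.a : ℚ) * P.b * P.c) ≠ 0 := by exact_mod_cast P.habc0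
  exact div_ne_zero (pow_ne_zero _ h) (by norm_num)

/-- Nontriviality of `E[p](ℚ̄)` for the Frey curve (first half of `GaloisRepIsIrreducible`),
given direction (b) of the division-polynomial theorem. -/
theorem frey_nontrivial_torsionBy_of_DP (P : FreyPackage)
    (hDPb : ∀ (x y : AlgebraicClosure ℚ)
      (h : (P.freyCurve.toAffine⁄(AlgebraicClosure ℚ)).Nonsingular x y),
      ((P.freyCurve.toAffine⁄(AlgebraicClosure ℚ)).preΨ' P.p).eval x = 0 →
        P.p • Point.some x y h = 0) :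
    Nontrivial (Submodule.torsionBy ℤ (P.freyCurve⁄(AlgebraicClosure ℚ)).Point P.p) :=
  nontrivial_torsionBy_of_DP P.freyCurve (freyCurve_Δ_ne_zero P)
    (by have := P.hp5; omega) hDPb

/-- `E[p](ℚ̄)` of the Frey curve is finite of cardinality at most `p²`, given direction (a) of
the division-polynomial theorem. -/
theorem frey_card_torsionBy_le_of_DP (P : FreyPackage)
    (hDPa : ∀ Q : (P.freyCurve.toAffine⁄(AlgebraicClosure ℚ)).Point, Q ≠ 0 → P.p • Q = 0 →
      ((P.freyCurve.toAffine⁄(AlgebraicClosure ℚ)).preΨ' P.p).eval (xc _ Q) = 0) :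
    Finite (Submodule.torsionBy ℤ (P.freyCurve⁄(AlgebraicClosure ℚ)).Point P.p) ∧
      Nat.card (Submodule.torsionBy ℤ (P.freyCurve⁄(AlgebraicClosure ℚ)).Point P.p)
        ≤ P.p ^ 2 :=
  card_torsionBy_le_of_DP P.freyCurve P.hp_odd hDPa

end frey

end Fermat.Agent.H70
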