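import Fermat.Agent.H70.TorsionCount
import Fermat.Agent.H72.DivPoly

/-!
# `E[p](ℚ̄)` is nontrivial of cardinality at most `p²` (helper70, S13 / WP3c)

Hypothesis-free versions of the statements of `Fermat.Agent.H70.TorsionCount`, obtained from the
division-polynomial theorem `Fermat.Agent.H72.eval_preΨ_prime_eq_zero_iff`.
-/

set_option autoImplicit false
set_option linter.unusedSectionVars false

namespace Fermat.Agent.H70

open WeierstrassCurve WeierstrassCurve.Affine Polynomial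
open Fermat.Agent.H38

section generic

variable {F : Type*} [Field F] [DecidableEq F]

/-- Direction (a) of the division-polynomial theorem in the shape of `TorsionCount`. -/
theorem dpa_of_prime (W : WeierstrassCurve F) (hΔ : W.Δ ≠ 0) {p : ℕ} (hp : p.Prime)
    (hp2 : p ≠ 2) :
    ∀ P : W.toAffine.Point, P ≠ 0 → p • P = 0 → (W.preΨ' p).eval (xc W P) = 0 := by
  intro P hP hpP
  obtain ⟨x, y, h, rfl⟩ := exists_some_of_ne_zero W hP
  have := (Fermat.Agent.H72.eval_preΨ_prime_eq_zero_iff (W := W) h hΔ hp hp2).mpr hpP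
  rwa [preΨ_ofNat] at this

/-- Direction (b) of the division-polynomial theorem in the shape of `TorsionCount`. -/
theorem dpb_of_prime (W : WeierstrassCurve F) (hΔ : W.Δ ≠ 0) {p : ℕ} (hp : p.Prime)
    (hp2 : p ≠ 2) :
    ∀ (x y : F) (h : W.toAffine.Nonsingular x y), (W.preΨ' p).eval x = 0 →
      p • Point.some x y h = 0 := by
  intro x y h hx
  apply (Fermat.Agent.H72.eval_preΨ_prime_eq_zero_iff (W := W) h hΔ hp hp2).mp
  rwa [preΨ_ofNat]

/-- At most `p²` points are killed by an odd prime `p` (any field in which `p ≠ 0`). -/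
theorem ncard_torsion_prime_le (W : WeierstrassCurve F) (hΔ : W.Δ ≠ 0) {p : ℕ} (hp : p.Prime)
    (hp2 : p ≠ 2) (hpF : (p : F) ≠ 0) :
    {P : W.toAffine.Point | p • P = 0}.Finite ∧
      {P : W.toAffine.Point | p • P = 0}.ncard ≤ p ^ 2 :=
  ncard_torsion_le W (hp.odd_of_ne_two hp2) hpF (dpa_of_prime W hΔ hp hp2)

/-- Over an algebraically closed field in which the odd prime `p` is nonzero there is a nonzero
point killed by `p`. -/
theorem exists_torsion_point_prime [IsAlgClosed F] (W : WeierstrassCurve F) (hΔ : W.Δ ≠ 0)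
    {p : ℕ} (hp : p.Prime) (hp2 : p ≠ 2) (hpF : (p : F) ≠ 0) :
    ∃ P : W.toAffine.Point, P ≠ 0 ∧ p • P = 0 :=
  exists_torsion_point W hΔ (lt_of_le_of_ne hp.two_le (Ne.symm hp2)) hpF
    (dpb_of_prime W hΔ hp hp2)

end generic

/-- `E[p](ℚ̄)` is nontrivial, finite, of cardinality at most `p²`, for `E/ℚ` with `Δ ≠ 0` and an
odd prime `p`. -/
theorem torsionBy_prime (E : WeierstrassCurve ℚ) (hΔ : E.Δ ≠ 0) {p : ℕ} (hp : p.Prime)
    (hp2 : p ≠ 2) :
    Nontrivial (Submodule.torsionBy ℤ (E.toAffine⁄(AlgebraicClosure ℚ)).Point ((p : ℕ) : ℤ)) ∧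
    Finite (Submodule.torsionBy ℤ (E.toAffine⁄(AlgebraicClosure ℚ)).Point ((p : ℕ) : ℤ)) ∧
    Nat.card (Submodule.torsionBy ℤ (E.toAffine⁄(AlgebraicClosure ℚ)).Point ((p : ℕ) : ℤ))
      ≤ p ^ 2 := by
  have hΔ' := baseChange_Δ_ne_zero E hΔ
  obtain ⟨h1, h2⟩ := card_torsionBy_le_of_DP E (hp.odd_of_ne_two hp2)
    (dpa_of_prime (E.toAffine⁄(AlgebraicClosure ℚ)) hΔ' hp hp2)
  exact ⟨nontrivial_torsionBy_of_DP E hΔ (lt_of_le_of_ne hp.two_le (Ne.symm hp2))
    (dpb_of_prime (E.toAffine⁄(AlgebraicClosure ℚ)) hΔ' hp hp2), h1, h2⟩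

/-- The `p`-torsion of the Frey curve over `ℚ̄` is nontrivial, finite, of cardinality at most
`p²`. -/
theorem frey_torsionBy_prime (P : FreyPackage) :
    Nontrivial (Submodule.torsionBy ℤ (P.freyCurve⁄(AlgebraicClosure ℚ)).Point P.p) ∧
    Finite (Submodule.torsionBy ℤ (P.freyCurve⁄(AlgebraicClosure ℚ)).Point P.p) ∧
    Nat.card (Submodule.torsionBy ℤ (P.freyCurve⁄(AlgebraicClosure ℚ)).Point P.p) ≤ P.p ^ 2 :=
  torsionBy_prime P.freyCurve (freyCurve_Δ_ne_zero P) P.pp (by have := P.hp5; omega)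

end Fermat.Agent.H70
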