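import Fermat.Agent.H70.RatDegDup
import Fermat.Agent.H70.AddSub

/-!
# The degree height on a twisted constant curve over `RatFunc k` (helper70, S52 / WP-B2)

`E₀` is a Weierstrass curve over a field `k` with `Δ ≠ 0`, `W` is a Weierstrass curve over
`K = RatFunc k` whose `b`-invariants are `c^i` times those of `E₀` (`IsConstTwist`): `W` is the
quadratic twist of the constant curve `E₀` by `c`, and `ξ = x / c` is the `x`-coordinate on `E₀`.
The height `hgt (x, y) = ratDeg (x / c)` satisfies the parallelogram law.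

Main results: `hgt_neg`, `hgt_two_nsmul`, `hgt_add_sub_le`, `hgt_parallelogram`.
-/

set_option autoImplicit false

namespace Fermat.Agent.H70

open WeierstrassCurve WeierstrassCurve.Affine Polynomial
open Fermat.Agent.H38

variable {k : Type*} [Field k]

/-- `W` is a twist by `c` of the constant curve `E₀`, on the level of `b`-invariants. -/
structure IsConstTwist (E₀ : WeierstrassCurve k) (W : WeierstrassCurve (RatFunc k))
    (c : RatFunc k) : Prop where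
  c_ne : c ≠ 0
  hb₂ : W.b₂ = c * RatFunc.C E₀.b₂
  hb₄ : W.b₄ = c ^ 2 * RatFunc.C E₀.b₄
  hb₆ : W.b₆ = c ^ 3 * RatFunc.C E₀.b₆
  hb₈ : W.b₈ = c ^ 4 * RatFunc.C E₀.b₈

/-- The degree height of a point: `ratDeg (x / c)`, and `0` at the origin. -/
noncomputable def hgt (W : WeierstrassCurve (RatFunc k)) (c : RatFunc k) :
    W.toAffine.Point → ℕ
  | .zero => 0
  | .some x _ _ => ratDeg (x / c)

@[simp] lemma hgt_zero (W : WeierstrassCurve (RatFunc k)) (c : RatFunc k) :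
    hgt W c (0 : W.toAffine.Point) = 0 := rfl

@[simp] lemma hgt_some (W : WeierstrassCurve (RatFunc k)) (c : RatFunc k) {x y : RatFunc k}
    (h : W.toAffine.Nonsingular x y) : hgt W c (Point.some x y h) = ratDeg (x / c) := rfl

lemma hgt_neg (W : WeierstrassCurve (RatFunc k)) (c : RatFunc k) (P : W.toAffine.Point) :
    hgt W c (-P) = hgt W c P := by
  cases P <;> rfl

section pure

/-- Degree bound for the three biquadratic forms. -/
lemma natDegree_quad_le {m s n : k[X]} {D : ℕ} (hm : m.natDegree ≤ D) (hs : s.natDegree ≤ D)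
    (hn : n.natDegree ≤ D) (a₁ a₂ a₃ a₄ a₅ a₆ : k) :
    (C a₁ * m ^ 2 * s ^ 0 + C a₂ * m ^ 1 * s ^ 1 + C a₃ * m ^ 1 * n ^ 1 + C a₄ * s ^ 1 * n ^ 1
      + C a₅ * n ^ 2 * s ^ 0 + C a₆ * s ^ 2 * n ^ 0).natDegree ≤ 2 * D := by
  refine natDegree_add_le_of_degree_le (natDegree_add_le_of_degree_le
    (natDegree_add_le_of_degree_le (natDegree_add_le_of_degree_le (natDegree_add_le_of_degree_le
      ?_ ?_) ?_) ?_) ?_) ?_
  · exact natDegree_mono_le hm hs a₁ 2 0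
  · exact natDegree_mono_le hm hs a₂ 1 1
  · exact natDegree_mono_le hm hn a₃ 1 1
  · exact natDegree_mono_le hs hn a₄ 1 1
  · exact natDegree_mono_le hn hs a₅ 2 0
  · exact natDegree_mono_le hs hn a₆ 2 0

/-- **Upper bound**, pure form: if `ξ₃ + ξ₄` and `ξ₃ ξ₄` are given by the (SP) formulas of the
constants `b₂ b₄ b₆ b₈` in terms of `ξ₁ ≠ ξ₂`, then
`ratDeg ξ₃ + ratDeg ξ₄ ≤ 2 ratDeg ξ₁ + 2 ratDeg ξ₂`. -/
theorem ratDeg_add_le_of_SP (b₂ b₄ b₆ b₈ : k) {ξ₁ ξ₂ ξ₃ ξ₄ : RatFunc k} (hne : ξ₁ ≠ ξ₂)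
    (hs : (ξ₃ + ξ₄) * (ξ₂ - ξ₁) ^ 2 = 2 * ξ₂ * ξ₁ * (ξ₂ + ξ₁) + RatFunc.C b₂ * ξ₂ * ξ₁
      + RatFunc.C b₄ * (ξ₂ + ξ₁) + RatFunc.C b₆)
    (hp : ξ₃ * ξ₄ * (ξ₂ - ξ₁) ^ 2 = ξ₂ ^ 2 * ξ₁ ^ 2 - RatFunc.C b₄ * ξ₂ * ξ₁
      - RatFunc.C b₆ * (ξ₂ + ξ₁) - RatFunc.C b₈) :
    ratDeg ξ₃ + ratDeg ξ₄ ≤ 2 * ratDeg ξ₁ + 2 * ratDeg ξ₂ := by
  have hinj : Function.Injective (algebraMap k[X] (RatFunc k)) :=
    IsFractionRing.injective k[X] (RatFunc k)
  set u₁ := ξ₁.num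
  set v₁ := ξ₁.denom
  set u₂ := ξ₂.num
  set v₂ := ξ₂.denom
  have e₁ : ξ₁ * algebraMap k[X] (RatFunc k) v₁ = algebraMap k[X] (RatFunc k) u₁ :=
    mul_denom_eq_num ξ₁
  have e₂ : ξ₂ * algebraMap k[X] (RatFunc k) v₂ = algebraMap k[X] (RatFunc k) u₂ :=
    mul_denom_eq_num ξ₂
  have hv₁ : algebraMap k[X] (RatFunc k) v₁ ≠ 0 := by
    simpa using RatFunc.denom_ne_zero ξ₁
  have hv₂ : algebraMap k[X] (RatFunc k) v₂ ≠ 0 := by
    simpa using RatFunc.denom_ne_zero ξ₂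
  set d₁ := max u₁.natDegree v₁.natDegree with hd₁
  set d₂ := max u₂.natDegree v₂.natDegree with hd₂
  have hu₁d : u₁.natDegree ≤ d₁ := le_max_left _ _
  have hv₁d : v₁.natDegree ≤ d₁ := le_max_right _ _
  have hu₂d : u₂.natDegree ≤ d₂ := le_max_left _ _
  have hv₂d : v₂.natDegree ≤ d₂ := le_max_right _ _
  -- the basic bilinear forms
  set m := u₂ * u₁ with hm
  set n := v₂ * v₁ with hn
  set s := u₂ * v₁ + u₁ * v₂ with hs'
  set δ := u₂ * v₁ - u₁ * v₂ with hδ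
  have hmD : m.natDegree ≤ d₁ + d₂ := by
    rw [add_comm]; exact natDegree_mul_le_of_le hu₂d hu₁d
  have hnD : n.natDegree ≤ d₁ + d₂ := by
    rw [add_comm]; exact natDegree_mul_le_of_le hv₂d hv₁d
  have hsD : s.natDegree ≤ d₁ + d₂ := by
    refine natDegree_add_le_of_degree_le ?_ ?_
    · rw [add_comm]; exact natDegree_mul_le_of_le hu₂d hv₁d
    · exact natDegree_mul_le_of_le hu₁d hv₂d
  have hδD : δ.natDegree ≤ d₁ + d₂ := by
    refine natDegree_sub_le_same ?_ ?_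
    · rw [add_comm]; exact natDegree_mul_le_of_le hu₂d hv₁d
    · exact natDegree_mul_le_of_le hu₁d hv₂d
  have hAn : (δ ^ 2).natDegree ≤ 2 * (d₁ + d₂) := natDegree_pow_le_of_le 2 hδD
  have hBn := natDegree_quad_le hmD hsD hnD 0 2 b₂ b₄ b₆ 0
  have hCn := natDegree_quad_le hmD hsD hnD 1 0 (-b₄) (-b₆) (-b₈) 0
  have hφm : algebraMap k[X] (RatFunc k) m =
      ξ₂ * ξ₁ * (algebraMap k[X] (RatFunc k) v₂ * algebraMap k[X] (RatFunc k) v₁) := by
    rw [hm, map_mul, ← e₁, ← e₂]; ring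
  have hφn : algebraMap k[X] (RatFunc k) n =
      algebraMap k[X] (RatFunc k) v₂ * algebraMap k[X] (RatFunc k) v₁ := by
    rw [hn, map_mul]
  have hφs : algebraMap k[X] (RatFunc k) s =
      (ξ₂ + ξ₁) * (algebraMap k[X] (RatFunc k) v₂ * algebraMap k[X] (RatFunc k) v₁) := by
    rw [hs', map_add, map_mul, map_mul, ← e₁, ← e₂]; ring
  have hφδ : algebraMap k[X] (RatFunc k) δ =
      (ξ₂ - ξ₁) * (algebraMap k[X] (RatFunc k) v₂ * algebraMap k[X] (RatFunc k) v₁) := by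
    rw [hδ, map_sub, map_mul, map_mul, ← e₁, ← e₂]; ring
  have hA : δ ^ 2 ≠ 0 := by
    intro h0
    have : algebraMap k[X] (RatFunc k) (δ ^ 2) = 0 := by rw [h0, map_zero]
    rw [map_pow, hφδ] at this
    have h1 := pow_eq_zero_iff (two_ne_zero) |>.mp this
    rcases mul_eq_zero.mp h1 with h | h
    · exact hne (sub_eq_zero.mp h).symm
    · rcases mul_eq_zero.mp h with h | h
      · exact hv₂ h
      · exact hv₁ h
  have key := ratDeg_add_le_of_sum_prod (ξ₃ := ξ₃) (ξ₄ := ξ₄) hA hAn hBn hCn ?_ ?_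
  · rw [ratDeg_def ξ₁, ratDeg_def ξ₂]
    calc ratDeg ξ₃ + ratDeg ξ₄ ≤ 2 * (d₁ + d₂) := key
      _ = 2 * d₁ + 2 * d₂ := by ring
  · simp only [map_add, map_mul, map_pow, RatFunc.algebraMap_C, hφm, hφn, hφs, hφδ, map_zero,
      map_ofNat]
    linear_combination
      ((algebraMap k[X] (RatFunc k) v₂ * algebraMap k[X] (RatFunc k) v₁) ^ 2) * hs
  · simp only [map_add, map_mul, map_pow, RatFunc.algebraMap_C, hφm, hφn, hφs, hφδ, map_zero,
      map_one, map_neg]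
    linear_combination
      ((algebraMap k[X] (RatFunc k) v₂ * algebraMap k[X] (RatFunc k) v₁) ^ 2) * hp

end pure

section curve

variable [DecidableEq (RatFunc k)] {E₀ : WeierstrassCurve k} {W : WeierstrassCurve (RatFunc k)}
  {c : RatFunc k}

lemma hgt_eq_ratDeg_xc (W : WeierstrassCurve (RatFunc k)) (c : RatFunc k)
    {P : W.toAffine.Point} (hP : P ≠ 0) : hgt W c P = ratDeg (xc W P / c) := by
  obtain ⟨x, y, h, rfl⟩ := exists_some_of_ne_zero W hP
  rfl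

/-- **Upper bound** for points with different `x`-coordinates. -/
theorem hgt_add_sub_le_of_xc_ne (hW : IsConstTwist E₀ W c) {P Q : W.toAffine.Point}
    (hP : P ≠ 0) (hQ : Q ≠ 0) (hne : xc W P ≠ xc W Q) :
    hgt W c (Q + P) + hgt W c (Q - P) ≤ 2 * hgt W c P + 2 * hgt W c Q := by
  have hc := hW.c_ne
  have hs := xc_add_add_xc_sub W hP hQ hne
  have hp := xc_add_mul_xc_sub W hP hQ hne
  rw [hgt_eq_ratDeg_xc W c hP, hgt_eq_ratDeg_xc W c hQ,
    hgt_eq_ratDeg_xc W c (xc_ne_imp_add_ne_zero W hne),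
    hgt_eq_ratDeg_xc W c (xc_ne_imp_sub_ne_zero W hne)]
  simp only [spSum, spProd, hW.hb₂, hW.hb₄, hW.hb₆, hW.hb₈] at hs hp
  generalize xc W (Q + P) = x₃ at hs hp ⊢
  generalize xc W (Q - P) = x₄ at hs hp ⊢
  generalize xc W P = x₁ at hs hp hne ⊢
  generalize xc W Q = x₂ at hs hp hne ⊢
  have hne' : x₁ / c ≠ x₂ / c := by
    intro h
    apply hne
    field_simp at h
    exact h
  refine ratDeg_add_le_of_SP E₀.b₂ E₀.b₄ E₀.b₆ E₀.b₈ hne' ?_ ?_
  · field_simp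
    linear_combination hs
  · field_simp
    linear_combination hp

/-- **Exactness of duplication**: `hgt (2 • P) = 4 * hgt P`. -/
theorem hgt_two_nsmul (hW : IsConstTwist E₀ W c) (hΔ : E₀.Δ ≠ 0) (P : W.toAffine.Point) :
    hgt W c (2 • P) = 4 * hgt W c P := by
  have hc := hW.c_ne
  by_cases hP : P = 0
  · subst hP; simp
  have hΔ' : -E₀.b₂ ^ 2 * E₀.b₈ - 8 * E₀.b₄ ^ 3 - 27 * E₀.b₆ ^ 2
      + 9 * E₀.b₂ * E₀.b₄ * E₀.b₆ ≠ 0 := by
    simpa [WeierstrassCurve.Δ] using hΔ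
  by_cases h2 : 2 • P = 0
  · rw [h2, hgt_zero]
    have h0 := (two_nsmul_eq_zero_iff W hP).mp h2
    rw [hgt_eq_ratDeg_xc W c hP]
    simp only [dblDen, hW.hb₂, hW.hb₄, hW.hb₆] at h0
    generalize xc W P = x at h0 ⊢
    rw [ratDeg_eq_zero_of_dupDen_eq_zero E₀.b_relation hΔ']
    field_simp
    linear_combination h0
  · have h := xc_two_nsmul W hP h2
    rw [hgt_eq_ratDeg_xc W c hP, hgt_eq_ratDeg_xc W c h2]
    simp only [dblDen, dblNum, hW.hb₂, hW.hb₄, hW.hb₆, hW.hb₈] at h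
    generalize xc W (2 • P) = x' at h ⊢
    generalize xc W P = x at h ⊢
    refine ratDeg_dup E₀.b_relation hΔ' ?_
    field_simp
    linear_combination h

/-- **Upper bound**, all cases. -/
theorem hgt_add_sub_le (hW : IsConstTwist E₀ W c) (hΔ : E₀.Δ ≠ 0) (P Q : W.toAffine.Point) :
    hgt W c (Q + P) + hgt W c (Q - P) ≤ 2 * hgt W c P + 2 * hgt W c Q := by
  by_cases hP : P = 0
  · subst hP; simp; omega
  by_cases hQ : Q = 0
  · subst hQ; simp [hgt_neg]; omega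
  by_cases hne : xc W P = xc W Q
  · rcases eq_or_eq_neg_of_xc_eq W hP hQ hne with h | h
    · subst h
      rw [sub_self, hgt_zero, ← two_nsmul, hgt_two_nsmul hW hΔ]
      omega
    · subst h
      rw [add_neg_cancel, hgt_zero, sub_neg_eq_add, ← two_nsmul, hgt_two_nsmul hW hΔ, hgt_neg]
      omega
  · exact hgt_add_sub_le_of_xc_ne hW hP hQ hne

/-- **Parallelogram law** for the degree height. -/
theorem hgt_parallelogram (hW : IsConstTwist E₀ W c) (hΔ : E₀.Δ ≠ 0)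
    (P Q : W.toAffine.Point) :
    hgt W c (P + Q) + hgt W c (P - Q) = 2 * hgt W c P + 2 * hgt W c Q := by
  have h1 := hgt_add_sub_le hW hΔ Q P
  have h2 := hgt_add_sub_le hW hΔ (P - Q) (P + Q)
  have e1 : P + Q + (P - Q) = 2 • P := by rw [two_nsmul]; abel
  have e2 : P + Q - (P - Q) = 2 • Q := by rw [two_nsmul]; abel
  rw [e1, e2, hgt_two_nsmul hW hΔ, hgt_two_nsmul hW hΔ] at h2
  omega

end curve

end Fermat.Agent.H70
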