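import Fermat.Agent.H70.HeightTwist
import Fermat.Agent.H74.TwistInterfaces

/-!
# Points of height zero on a twisted constant curve; adapters (helper70, S52 / WP-B)

* `two_nsmul_eq_zero_of_hgt_eq_zero` : if the twisting element `c` has odd degree, a point of
  height `0` is killed by `2`.
* `eq_zero_of_hgt_eq_zero_of_two_nsmul` variants, and the torsion-freeness statement
  `hgt_eq_zero_iff`.
* adapters to the interface statements of `Fermat.Agent.H74.TwistInterfaces`.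
-/

set_option autoImplicit false

namespace Fermat.Agent.H70

open WeierstrassCurve WeierstrassCurve.Affine Polynomial
open Fermat.Agent.H38

variable {k : Type*} [Field k]

lemma ratDeg_eq_hdeg (r : RatFunc k) : ratDeg r = Fermat.Agent.H74.hdeg r := rfl

/-- A rational function of height zero is constant. -/
lemma exists_C_of_ratDeg_eq_zero {ξ : RatFunc k} (h : ratDeg ξ = 0) : ∃ e : k, ξ = RatFunc.C e := by
  rw [ratDeg_def] at h
  have h1 : ξ.num.natDegree = 0 := by omega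
  have h2 : ξ.denom.natDegree = 0 := by omega
  obtain ⟨a, ha⟩ := natDegree_eq_zero.mp h1
  obtain ⟨b, hb⟩ := natDegree_eq_zero.mp h2
  have hb0 : b ≠ 0 := by
    rintro rfl
    apply RatFunc.denom_ne_zero ξ
    rw [← hb, map_zero]
  refine ⟨a / b, ?_⟩
  have e := mul_denom_eq_num ξ
  rw [← ha, ← hb, RatFunc.algebraMap_C, RatFunc.algebraMap_C] at e
  have hCb : (RatFunc.C b : RatFunc k) ≠ 0 := by
    intro h0
    apply hb0
    exact RatFunc.C_injective (by rw [h0, map_zero])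
  rw [map_div₀, eq_div_iff hCb, e]

/-- An element of odd degree is not a square in `RatFunc k`. -/
lemma not_isSquare_of_odd_intDegree {r : RatFunc k} (hr : Odd r.intDegree) : ¬ IsSquare r := by
  rintro ⟨s, rfl⟩
  by_cases hs : s = 0
  · subst hs; simp at hr
  · rw [RatFunc.intDegree_mul hs hs] at hr
    exact (Int.not_odd_iff_even.mpr ⟨_, rfl⟩) hr

section curve

variable [DecidableEq (RatFunc k)] {E₀ : WeierstrassCurve k} {W : WeierstrassCurve (RatFunc k)}
  {c : RatFunc k}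

/-- If the twisting element has odd degree, the points of height `0` are killed by `2`. -/
theorem two_nsmul_eq_zero_of_hgt_eq_zero (hW : IsConstTwist E₀ W c) (hc : Odd c.intDegree)
    {P : W.toAffine.Point} (h : hgt W c P = 0) : 2 • P = 0 := by
  by_cases hP : P = 0
  · subst hP; simp
  rw [two_nsmul_eq_zero_iff W hP]
  obtain ⟨x, y, hxy, rfl⟩ := exists_some_of_ne_zero W hP
  rw [hgt_some] at h
  rw [xc_some]
  obtain ⟨e, he⟩ := exists_C_of_ratDeg_eq_zero h
  have hc0 := hW.c_ne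
  have hx : x = c * RatFunc.C e := by
    rw [← he]; field_simp
  have hsq := dblDen_eq_sq W hxy.1
  have hd : dblDen W x = c ^ 3 * RatFunc.C (4 * e ^ 3 + E₀.b₂ * e ^ 2 + 2 * E₀.b₄ * e + E₀.b₆) := by
    simp only [dblDen, hW.hb₂, hW.hb₄, hW.hb₆, hx, map_add, map_mul, map_pow, map_ofNat]
    ring
  by_contra hne
  set g := 4 * e ^ 3 + E₀.b₂ * e ^ 2 + 2 * E₀.b₄ * e + E₀.b₆ with hg
  have hg0 : g ≠ 0 := by
    intro h0
    apply hne
    rw [hd, h0, map_zero, mul_zero]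
  have hCg : (RatFunc.C g : RatFunc k) ≠ 0 := by
    intro h0
    apply hg0
    exact RatFunc.C_injective (by rw [h0, map_zero])
  have hodd : Odd (c * RatFunc.C g).intDegree := by
    rw [RatFunc.intDegree_mul hc0 hCg, RatFunc.intDegree_C, add_zero]
    exact hc
  apply not_isSquare_of_odd_intDegree hodd
  refine ⟨(y - W.toAffine.negY x y) / c, ?_⟩
  have : (y - W.toAffine.negY x y) ^ 2 = c ^ 3 * RatFunc.C g := by
    rw [← hsq, hd]
  field_simp
  linear_combination -this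

/-- If the twisting element has odd degree: `hgt P = 0 ↔ 2 • P = 0`. -/
theorem hgt_eq_zero_iff (hW : IsConstTwist E₀ W c) (hΔ : E₀.Δ ≠ 0) (hc : Odd c.intDegree)
    (P : W.toAffine.Point) : hgt W c P = 0 ↔ 2 • P = 0 := by
  constructor
  · exact two_nsmul_eq_zero_of_hgt_eq_zero hW hc
  · intro h
    have := hgt_two_nsmul hW hΔ P
    rw [h, hgt_zero] at this
    omega

end curve

/-! ## Adapters to `Fermat.Agent.H74.TwistInterfaces` -/

/-- **B2b** in helper74's shape. -/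
theorem paraDoubleStatement (a b : k) (h2 : (2 : k) ≠ 0) (hΔ : 4 * a ^ 3 + 27 * b ^ 2 ≠ 0) :
    Fermat.Agent.H74.ParaDoubleStatement a b := by
  intro ξ ξ' _ h
  have hrel : 4 * (-a ^ 2) = (0 : k) * (4 * b) - (2 * a) ^ 2 := by ring
  have hΔ' : -(0 : k) ^ 2 * (-a ^ 2) - 8 * (2 * a) ^ 3 - 27 * (4 * b) ^ 2
      + 9 * 0 * (2 * a) * (4 * b) ≠ 0 := by
    have : -(0 : k) ^ 2 * (-a ^ 2) - 8 * (2 * a) ^ 3 - 27 * (4 * b) ^ 2
      + 9 * 0 * (2 * a) * (4 * b) = -(2 ^ 4) * (4 * a ^ 3 + 27 * b ^ 2) := by ring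
    rw [this]
    exact mul_ne_zero (neg_ne_zero.mpr (pow_ne_zero _ h2)) hΔ
  change ratDeg ξ' = 4 * ratDeg ξ
  refine ratDeg_dup hrel hΔ' ?_
  simp only [map_mul, map_neg, map_pow, map_ofNat, map_zero]
  linear_combination h

/-- **B2a, upper bound** in helper74's shape (the exact law holds on points, see
`hgt_parallelogram`). -/
theorem paraGeneric_le (a b : k) (ξ₁ ξ₂ ξ₃ ξ₄ : RatFunc k) (hne : ξ₁ ≠ ξ₂)
    (hs : (ξ₃ + ξ₄) * (ξ₁ - ξ₂) ^ 2 =
      2 * (ξ₁ * ξ₂ + RatFunc.C a) * (ξ₁ + ξ₂) + 4 * RatFunc.C b)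
    (hp : ξ₃ * ξ₄ * (ξ₁ - ξ₂) ^ 2 = (ξ₁ * ξ₂ - RatFunc.C a) ^ 2 - 4 * RatFunc.C b * (ξ₁ + ξ₂)) :
    Fermat.Agent.H74.hdeg ξ₃ + Fermat.Agent.H74.hdeg ξ₄ ≤
      2 * Fermat.Agent.H74.hdeg ξ₁ + 2 * Fermat.Agent.H74.hdeg ξ₂ := by
  change ratDeg ξ₃ + ratDeg ξ₄ ≤ 2 * ratDeg ξ₁ + 2 * ratDeg ξ₂
  refine ratDeg_add_le_of_SP 0 (2 * a) (4 * b) (-a ^ 2) hne ?_ ?_
  · simp only [map_mul, map_ofNat, map_zero]
    linear_combination hs
  · simp only [map_mul, map_neg, map_pow, map_ofNat]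
    linear_combination hp

end Fermat.Agent.H70
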