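import Mathlib

/-!
# The degree height on `RatFunc k` (helper70, S52 / WP-B2, pure polynomial part)

`ratDeg r = max (deg num r) (deg denom r)`.

* `ratDeg_div_of_isCoprime` : computed from any coprime representation.
* `ratDeg_add_le_of_sum_prod` : Gauss-type lemma.  If `(ξ₃ + ξ₄) A = B` and `ξ₃ ξ₄ A = C` with
  polynomials `A ≠ 0, B, C` of degree `≤ n`, then `ratDeg ξ₃ + ratDeg ξ₄ ≤ n`.
-/

set_option autoImplicit false

namespace Fermat.Agent.H70

open Polynomial

variable {k : Type*} [Field k]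

/-- The degree height of a rational function. -/
noncomputable def ratDeg (r : RatFunc k) : ℕ := max r.num.natDegree r.denom.natDegree

lemma ratDeg_def (r : RatFunc k) : ratDeg r = max r.num.natDegree r.denom.natDegree := rfl

/-- Two coprime representations of the same fraction have the same degrees. -/
lemma natDegree_eq_of_coprime_cross {u v u' v' : k[X]}
    (h : IsCoprime u v) (h' : IsCoprime u' v') (hc : u * v' = u' * v) :
    u.natDegree = u'.natDegree ∧ v.natDegree = v'.natDegree := by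
  have h1 : v ∣ v' := by
    have : v ∣ u * v' := ⟨u', by rw [hc]; ring⟩
    exact h.symm.dvd_of_dvd_mul_left this
  have h2 : v' ∣ v := by
    have : v' ∣ u' * v := ⟨u, by rw [← hc]; ring⟩
    exact h'.symm.dvd_of_dvd_mul_left this
  have h3 : u ∣ u' := by
    have : u ∣ u' * v := ⟨v', by rw [← hc]⟩
    exact h.dvd_of_dvd_mul_right this
  have h4 : u' ∣ u := by
    have : u' ∣ u * v' := ⟨v, by rw [hc]⟩
    exact h'.dvd_of_dvd_mul_right this
  refine ⟨?_, ?_⟩
  · exact natDegree_eq_of_degree_eq (degree_eq_degree_of_associated (associated_of_dvd_dvd h3 h4))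
  · exact natDegree_eq_of_degree_eq (degree_eq_degree_of_associated (associated_of_dvd_dvd h1 h2))

/-- `ratDeg` from any coprime representation. -/
theorem ratDeg_div_of_isCoprime {u v : k[X]} (hv : v ≠ 0) (h : IsCoprime u v) :
    ratDeg (algebraMap k[X] (RatFunc k) u / algebraMap k[X] (RatFunc k) v) =
      max u.natDegree v.natDegree := by
  set r := algebraMap k[X] (RatFunc k) u / algebraMap k[X] (RatFunc k) v with hr
  have hc : r.num * v = u * r.denom := (RatFunc.num_mul_eq_mul_denom_iff hv).mpr hr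
  obtain ⟨e1, e2⟩ := natDegree_eq_of_coprime_cross
    (RatFunc.isCoprime_num_denom r) h hc
  rw [ratDeg_def, e1, e2]

/-- `ratDeg` of a fraction is at most the max of the degrees. -/
theorem ratDeg_eq_of_mul_eq {r : RatFunc k} {u v : k[X]} (hv : v ≠ 0) (h : IsCoprime u v)
    (hr : r * algebraMap k[X] (RatFunc k) v = algebraMap k[X] (RatFunc k) u) :
    ratDeg r = max u.natDegree v.natDegree := by
  have hv' : algebraMap k[X] (RatFunc k) v ≠ 0 := by
    simpa using hv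
  have : r = algebraMap k[X] (RatFunc k) u / algebraMap k[X] (RatFunc k) v := by
    rw [eq_div_iff hv', hr]
  rw [this, ratDeg_div_of_isCoprime hv h]

lemma ratDeg_algebraMap (u : k[X]) : ratDeg (algebraMap k[X] (RatFunc k) u) = u.natDegree := by
  have := ratDeg_eq_of_mul_eq (r := algebraMap k[X] (RatFunc k) u) (u := u) (v := 1) one_ne_zero
    isCoprime_one_right (by simp)
  simpa using this

lemma ratDeg_C (a : k) : ratDeg (RatFunc.C a : RatFunc k) = 0 := by
  have : (RatFunc.C a : RatFunc k) = algebraMap k[X] (RatFunc k) (Polynomial.C a) := by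
    simp
  rw [this, ratDeg_algebraMap, natDegree_C]

lemma ratDeg_X : ratDeg (RatFunc.X : RatFunc k) = 1 := by
  have : (RatFunc.X : RatFunc k) = algebraMap k[X] (RatFunc k) Polynomial.X := by
    simp
  rw [this, ratDeg_algebraMap, natDegree_X]

/-- The defining equation `r * denom = num`. -/
lemma mul_denom_eq_num (r : RatFunc k) :
    r * algebraMap k[X] (RatFunc k) r.denom = algebraMap k[X] (RatFunc k) r.num := by
  have hd : algebraMap k[X] (RatFunc k) r.denom ≠ 0 := by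
    simpa using RatFunc.denom_ne_zero r
  have h := RatFunc.num_div_denom r
  rw [div_eq_iff hd] at h
  exact h.symm

/-! ## Gauss-type lemma -/

/-- The content of `(v₃ T - u₃)(v₄ T - u₄)` is trivial if both factors are primitive. -/
lemma gauss_combination {u₃ v₃ u₄ v₄ : k[X]} (h₃ : IsCoprime u₃ v₃) (h₄ : IsCoprime u₄ v₄) :
    ∃ α β γ : k[X], α * (v₃ * v₄) + β * (u₃ * v₄ + u₄ * v₃) + γ * (u₃ * u₄) = 1 := by
  obtain ⟨a₃, b₃, e₃⟩ := h₃
  obtain ⟨a₄, b₄, e₄⟩ := h₄
  refine ⟨2 * a₃ * b₃ * b₄ ^ 2 * u₃ * v₄ + b₃ ^ 2 * 2 * a₄ * b₄ * v₃ * u₄ + b₃ ^ 2 * b₄ ^ 2 * v₃ * v₄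
      - a₃ ^ 2 * b₄ ^ 2 * u₃ * u₄ - b₃ ^ 2 * a₄ ^ 2 * u₃ * u₄,
    a₃ ^ 2 * b₄ ^ 2 * u₃ * v₄ + b₃ ^ 2 * a₄ ^ 2 * v₃ * u₄,
    a₃ ^ 2 * a₄ ^ 2 * u₃ * u₄ + a₃ ^ 2 * 2 * a₄ * b₄ * u₃ * v₄ + 2 * a₃ * b₃ * a₄ ^ 2 * v₃ * u₄
      + 2 * a₃ * b₃ * 2 * a₄ * b₄ * v₃ * v₄, ?_⟩
  have : (a₃ * u₃ + b₃ * v₃) ^ 2 * (a₄ * u₄ + b₄ * v₄) ^ 2 = 1 := by
    rw [e₃, e₄]; ring
  rw [← this]
  ring

/-- Degree of the primitive triple at infinity. -/
lemma gauss_infinity {u₃ v₃ u₄ v₄ : k[X]} (hv₃ : v₃ ≠ 0) (hv₄ : v₄ ≠ 0) :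
    (v₃ * v₄).natDegree = max u₃.natDegree v₃.natDegree + max u₄.natDegree v₄.natDegree ∨
    (u₃ * v₄ + u₄ * v₃).natDegree =
      max u₃.natDegree v₃.natDegree + max u₄.natDegree v₄.natDegree ∨
    (u₃ * u₄).natDegree = max u₃.natDegree v₃.natDegree + max u₄.natDegree v₄.natDegree := by
  rcases le_or_gt u₃.natDegree v₃.natDegree with h3 | h3
  · rcases le_or_gt u₄.natDegree v₄.natDegree with h4 | h4
    · left
      rw [natDegree_mul hv₃ hv₄, max_eq_right h3, max_eq_right h4]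
    · right; left
      have hu₄ : u₄ ≠ 0 := by
        rintro rfl; simp at h4
      rw [max_eq_right h3, max_eq_left h4.le]
      by_cases hu₃ : u₃ = 0
      · subst hu₃
        simp only [zero_mul, zero_add]
        rw [natDegree_mul hu₄ hv₃, add_comm]
      · have hlt : (u₃ * v₄).natDegree < (u₄ * v₃).natDegree := by
          rw [natDegree_mul hu₃ hv₄, natDegree_mul hu₄ hv₃]
          omega
        rw [add_comm (u₃ * v₄), natDegree_add_eq_left_of_natDegree_lt hlt,
          natDegree_mul hu₄ hv₃, add_comm]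
  · have hu₃ : u₃ ≠ 0 := by
      rintro rfl; simp at h3
    rcases le_or_gt u₄.natDegree v₄.natDegree with h4 | h4
    · right; left
      rw [max_eq_left h3.le, max_eq_right h4]
      by_cases hu₄ : u₄ = 0
      · subst hu₄
        simp only [zero_mul, add_zero]
        rw [natDegree_mul hu₃ hv₄]
      · have hlt : (u₄ * v₃).natDegree < (u₃ * v₄).natDegree := by
          rw [natDegree_mul hu₃ hv₄, natDegree_mul hu₄ hv₃]
          omega
        rw [natDegree_add_eq_left_of_natDegree_lt hlt, natDegree_mul hu₃ hv₄]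
    · right; right
      have hu₄ : u₄ ≠ 0 := by
        rintro rfl; simp at h4
      rw [natDegree_mul hu₃ hu₄, max_eq_left h3.le, max_eq_left h4.le]

/-- **Gauss-type lemma**, polynomial form. -/
theorem gauss_le {u₃ v₃ u₄ v₄ A B C : k[X]} {n : ℕ} (h₃ : IsCoprime u₃ v₃)
    (h₄ : IsCoprime u₄ v₄) (hv₃ : v₃ ≠ 0) (hv₄ : v₄ ≠ 0) (hA : A ≠ 0)
    (hAn : A.natDegree ≤ n) (hBn : B.natDegree ≤ n) (hCn : C.natDegree ≤ n)
    (hs : (u₃ * v₄ + u₄ * v₃) * A = B * (v₃ * v₄))
    (hp : u₃ * u₄ * A = C * (v₃ * v₄)) :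
    max u₃.natDegree v₃.natDegree + max u₄.natDegree v₄.natDegree ≤ n := by
  obtain ⟨α, β, γ, e⟩ := gauss_combination h₃ h₄
  set g := α * A + β * B + γ * C with hg
  have hA' : A = g * (v₃ * v₄) := by
    have : A = A * (α * (v₃ * v₄) + β * (u₃ * v₄ + u₄ * v₃) + γ * (u₃ * u₄)) := by
      rw [e, mul_one]
    rw [this, hg]
    linear_combination β * hs + γ * hp
  have hvv : v₃ * v₄ ≠ 0 := mul_ne_zero hv₃ hv₄
  have hg0 : g ≠ 0 := by
    rintro h0
    apply hA
    rw [hA', h0, zero_mul]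
  have hB' : B = g * (u₃ * v₄ + u₄ * v₃) := by
    apply mul_right_cancel₀ hvv
    rw [← hs, hA']
    ring
  have hC' : C = g * (u₃ * u₄) := by
    apply mul_right_cancel₀ hvv
    rw [← hp, hA']
    ring
  have key : ∀ {M N : k[X]}, N = g * M → N.natDegree ≤ n → M.natDegree ≤ n := by
    intro M N hN hNn
    by_cases hM : M = 0
    · subst hM; simp
    · rw [hN, natDegree_mul hg0 hM] at hNn
      omega
  rcases gauss_infinity (u₃ := u₃) (u₄ := u₄) hv₃ hv₄ with h | h | h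
  · rw [← h]; exact key hA' hAn
  · rw [← h]; exact key hB' hBn
  · rw [← h]; exact key hC' hCn

/-- **Gauss-type lemma**: if `(ξ₃ + ξ₄) A = B` and `ξ₃ ξ₄ A = C` with polynomials `A ≠ 0`, `B`,
`C` of degree at most `n`, then `ratDeg ξ₃ + ratDeg ξ₄ ≤ n`. -/
theorem ratDeg_add_le_of_sum_prod {ξ₃ ξ₄ : RatFunc k} {A B C : k[X]} {n : ℕ} (hA : A ≠ 0)
    (hAn : A.natDegree ≤ n) (hBn : B.natDegree ≤ n) (hCn : C.natDegree ≤ n)
    (hs : (ξ₃ + ξ₄) * algebraMap k[X] (RatFunc k) A = algebraMap k[X] (RatFunc k) B)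
    (hp : ξ₃ * ξ₄ * algebraMap k[X] (RatFunc k) A = algebraMap k[X] (RatFunc k) C) :
    ratDeg ξ₃ + ratDeg ξ₄ ≤ n := by
  have hinj : Function.Injective (algebraMap k[X] (RatFunc k)) :=
    IsFractionRing.injective k[X] (RatFunc k)
  have e₃ := mul_denom_eq_num ξ₃
  have e₄ := mul_denom_eq_num ξ₄
  refine gauss_le (RatFunc.isCoprime_num_denom ξ₃) (RatFunc.isCoprime_num_denom ξ₄)
    (RatFunc.denom_ne_zero ξ₃) (RatFunc.denom_ne_zero ξ₄) hA hAn hBn hCn ?_ ?_
  · apply hinj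
    simp only [map_mul, map_add]
    rw [← hs, ← e₃, ← e₄]
    ring
  · apply hinj
    simp only [map_mul]
    rw [← hp, ← e₃, ← e₄]
    ring

end Fermat.Agent.H70
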