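import Fermat.Agent.H70.RatDeg

/-!
# Exactness of the duplication map for the degree height (helper70, S52 / WP-B2)

For constants `b₂ b₄ b₆ b₈ : k` with `4 b₈ = b₂ b₆ - b₄²` and `Δ ≠ 0`, and `ξ ξ' : RatFunc k`
with `ξ' (4ξ³ + b₂ξ² + 2b₄ξ + b₆) = ξ⁴ - b₄ξ² - 2b₆ξ - b₈`, we have `ratDeg ξ' = 4 ratDeg ξ`.
-/

set_option autoImplicit false

namespace Fermat.Agent.H70

open Polynomial

variable {k : Type*} [Field k]

lemma natDegree_sub_le_same {p q : k[X]} {n : ℕ} (hp : p.natDegree ≤ n) (hq : q.natDegree ≤ n) :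
    (p - q).natDegree ≤ n :=
  (natDegree_sub_le_of_le hp hq).trans (by simp)

lemma natDegree_mono_le {u v : k[X]} {d : ℕ} (hu : u.natDegree ≤ d) (hv : v.natDegree ≤ d)
    (a : k) (i j : ℕ) : (C a * u ^ i * v ^ j).natDegree ≤ (i + j) * d := by
  have h1 : (C a * u ^ i).natDegree ≤ i * d :=
    (natDegree_C_mul_le a _).trans (natDegree_pow_le_of_le i hu)
  have h2 : (v ^ j).natDegree ≤ j * d := natDegree_pow_le_of_le j hv
  have := natDegree_mul_le_of_le h1 h2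
  rwa [← add_mul] at this

lemma coeff_mono {u v : k[X]} {d : ℕ} (hu : u.natDegree ≤ d) (hv : v.natDegree ≤ d)
    (a : k) (i j : ℕ) :
    (C a * u ^ i * v ^ j).coeff ((i + j) * d) = a * u.coeff d ^ i * v.coeff d ^ j := by
  have h1 : (C a * u ^ i).natDegree ≤ i * d :=
    (natDegree_C_mul_le a _).trans (natDegree_pow_le_of_le i hu)
  have h2 : (v ^ j).natDegree ≤ j * d := natDegree_pow_le_of_le j hv
  rw [add_mul, coeff_mul_add_eq_of_natDegree_le h1 h2, coeff_C_mul,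
    coeff_pow_of_natDegree_le hu, coeff_pow_of_natDegree_le hv]

/-- The top coefficients of a coprime pair do not both vanish. -/
lemma top_coeff_ne_zero {u v : k[X]} (hv : v ≠ 0) :
    u.coeff (max u.natDegree v.natDegree) ≠ 0 ∨ v.coeff (max u.natDegree v.natDegree) ≠ 0 := by
  rcases le_or_gt u.natDegree v.natDegree with h | h
  · right
    rw [max_eq_right h]
    exact leadingCoeff_ne_zero.mpr hv
  · left
    rw [max_eq_left h.le]
    have hu : u ≠ 0 := by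
      rintro rfl; simp at h
    exact leadingCoeff_ne_zero.mpr hu

section dup

variable (b₂ b₄ b₆ b₈ : k)

/-- Homogenised numerator of the duplication formula. -/
noncomputable def dupNumH (u v : k[X]) : k[X] :=
  C 1 * u ^ 4 * v ^ 0 - C b₄ * u ^ 2 * v ^ 2 - C (2 * b₆) * u ^ 1 * v ^ 3 - C b₈ * u ^ 0 * v ^ 4

/-- Homogenised denominator of the duplication formula. -/
noncomputable def dupDenH (u v : k[X]) : k[X] :=
  C 4 * u ^ 3 * v ^ 1 + C b₂ * u ^ 2 * v ^ 2 + C (2 * b₄) * u ^ 1 * v ^ 3 + C b₆ * u ^ 0 * v ^ 4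

lemma natDegree_dupNumH_le {u v : k[X]} {d : ℕ} (hu : u.natDegree ≤ d) (hv : v.natDegree ≤ d) :
    (dupNumH b₄ b₆ b₈ u v).natDegree ≤ 4 * d := by
  unfold dupNumH
  have m := fun (a : k) (i j : ℕ) => natDegree_mono_le hu hv a i j
  exact natDegree_sub_le_same (natDegree_sub_le_same
    (natDegree_sub_le_same (m _ 4 0) (m _ 2 2)) (m _ 1 3)) (m _ 0 4)

lemma natDegree_dupDenH_le {u v : k[X]} {d : ℕ} (hu : u.natDegree ≤ d) (hv : v.natDegree ≤ d) :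
    (dupDenH b₂ b₄ b₆ u v).natDegree ≤ 4 * d := by
  unfold dupDenH
  have m := fun (a : k) (i j : ℕ) => natDegree_mono_le hu hv a i j
  exact natDegree_add_le_of_degree_le (natDegree_add_le_of_degree_le
    (natDegree_add_le_of_degree_le (m _ 3 1) (m _ 2 2)) (m _ 1 3)) (m _ 0 4)

lemma coeff_dupNumH {u v : k[X]} {d : ℕ} (hu : u.natDegree ≤ d) (hv : v.natDegree ≤ d) :
    (dupNumH b₄ b₆ b₈ u v).coeff (4 * d) =
      u.coeff d ^ 4 - b₄ * u.coeff d ^ 2 * v.coeff d ^ 2 - 2 * b₆ * u.coeff d * v.coeff d ^ 3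
        - b₈ * v.coeff d ^ 4 := by
  unfold dupNumH
  have m := fun (a : k) (i j : ℕ) => coeff_mono hu hv a i j
  rw [coeff_sub, coeff_sub, coeff_sub]
  have e1 : (C 1 * u ^ 4 * v ^ 0).coeff (4 * d) = _ := m 1 4 0
  have e2 : (C b₄ * u ^ 2 * v ^ 2).coeff (4 * d) = _ := m b₄ 2 2
  have e3 : (C (2 * b₆) * u ^ 1 * v ^ 3).coeff (4 * d) = _ := m (2 * b₆) 1 3
  have e4 : (C b₈ * u ^ 0 * v ^ 4).coeff (4 * d) = _ := m b₈ 0 4
  rw [e1, e2, e3, e4]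
  ring

lemma coeff_dupDenH {u v : k[X]} {d : ℕ} (hu : u.natDegree ≤ d) (hv : v.natDegree ≤ d) :
    (dupDenH b₂ b₄ b₆ u v).coeff (4 * d) =
      4 * u.coeff d ^ 3 * v.coeff d + b₂ * u.coeff d ^ 2 * v.coeff d ^ 2
        + 2 * b₄ * u.coeff d * v.coeff d ^ 3 + b₆ * v.coeff d ^ 4 := by
  unfold dupDenH
  have m := fun (a : k) (i j : ℕ) => coeff_mono hu hv a i j
  rw [coeff_add, coeff_add, coeff_add]
  have e1 : (C 4 * u ^ 3 * v ^ 1).coeff (4 * d) = _ := m 4 3 1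
  have e2 : (C b₂ * u ^ 2 * v ^ 2).coeff (4 * d) = _ := m b₂ 2 2
  have e3 : (C (2 * b₄) * u ^ 1 * v ^ 3).coeff (4 * d) = _ := m (2 * b₄) 1 3
  have e4 : (C b₆ * u ^ 0 * v ^ 4).coeff (4 * d) = _ := m b₆ 0 4
  rw [e1, e2, e3, e4]
  ring

variable {b₂ b₄ b₆ b₈}

/-- The classical certificate, homogenised. -/
lemma dup_certificate (hrel : 4 * b₈ = b₂ * b₆ - b₄ ^ 2) (u v : k[X]) :
    (C 12 * u ^ 3 - C b₂ * u ^ 2 * v - C (10 * b₄) * u * v ^ 2 + C (b₂ * b₄ - 27 * b₆) * v ^ 3)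
        * dupDenH b₂ b₄ b₆ u v
      - v * (C 48 * u ^ 2 + C (8 * b₂) * u * v + C (32 * b₄ - b₂ ^ 2) * v ^ 2)
        * dupNumH b₄ b₆ b₈ u v
      = C (-b₂ ^ 2 * b₈ - 8 * b₄ ^ 3 - 27 * b₆ ^ 2 + 9 * b₂ * b₄ * b₆) * v ^ 7 := by
  have hrel' : (C 4 : k[X]) * C b₈ = C b₂ * C b₆ - C b₄ ^ 2 := by
    rw [← C_mul, hrel]; simp
  unfold dupDenH dupNumH
  simp only [C_mul, C_sub, C_add, C_neg, C_pow, C_ofNat, map_one] at hrel' ⊢
  linear_combination ((12 * u ^ 2 + 2 * u * v * C b₂ + 8 * C b₄ * v ^ 2) * v ^ 5) * hrel'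

/-- The classical certificate on constants. -/
lemma dup_certificate_const (hrel : 4 * b₈ = b₂ * b₆ - b₄ ^ 2) (x z : k) :
    (12 * x ^ 3 - b₂ * x ^ 2 * z - 10 * b₄ * x * z ^ 2 + (b₂ * b₄ - 27 * b₆) * z ^ 3)
        * (4 * x ^ 3 * z + b₂ * x ^ 2 * z ^ 2 + 2 * b₄ * x * z ^ 3 + b₆ * z ^ 4)
      - z * (48 * x ^ 2 + 8 * b₂ * x * z + (32 * b₄ - b₂ ^ 2) * z ^ 2)
        * (x ^ 4 - b₄ * x ^ 2 * z ^ 2 - 2 * b₆ * x * z ^ 3 - b₈ * z ^ 4)
      = (-b₂ ^ 2 * b₈ - 8 * b₄ ^ 3 - 27 * b₆ ^ 2 + 9 * b₂ * b₄ * b₆) * z ^ 7 := by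
  linear_combination ((12 * x ^ 2 + 2 * x * z * b₂ + 8 * b₄ * z ^ 2) * z ^ 5) * hrel

lemma isCoprime_dupNumH_dupDenH (hrel : 4 * b₈ = b₂ * b₆ - b₄ ^ 2)
    (hΔ : -b₂ ^ 2 * b₈ - 8 * b₄ ^ 3 - 27 * b₆ ^ 2 + 9 * b₂ * b₄ * b₆ ≠ 0) {u v : k[X]}
    (huv : IsCoprime u v) : IsCoprime (dupNumH b₄ b₆ b₈ u v) (dupDenH b₂ b₄ b₆ u v) := by
  have h1 : IsCoprime (dupNumH b₄ b₆ b₈ u v) v := by
    have : dupNumH b₄ b₆ b₈ u v =
        u ^ 4 + v * (-(C b₄ * u ^ 2 * v) - C (2 * b₆) * u * v ^ 2 - C b₈ * v ^ 3) := by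
      unfold dupNumH; simp only [map_one]; ring
    rw [this]
    exact (huv.pow_left (m := 4)).add_mul_left_left _
  obtain ⟨a, b, hab⟩ := h1.pow_right (n := 7)
  have hc := dup_certificate hrel u v
  set Δ := -b₂ ^ 2 * b₈ - 8 * b₄ ^ 3 - 27 * b₆ ^ 2 + 9 * b₂ * b₄ * b₆ with hΔdef
  have hCC : (C Δ⁻¹ : k[X]) * C Δ = 1 := by
    rw [← C_mul, inv_mul_cancel₀ hΔ, C_1]
  refine ⟨a - b * C Δ⁻¹ * (v * (C 48 * u ^ 2 + C (8 * b₂) * u * v + C (32 * b₄ - b₂ ^ 2) * v ^ 2)),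
    b * C Δ⁻¹ * (C 12 * u ^ 3 - C b₂ * u ^ 2 * v - C (10 * b₄) * u * v ^ 2
      + C (b₂ * b₄ - 27 * b₆) * v ^ 3), ?_⟩
  linear_combination hab + (b * C Δ⁻¹) * hc + (b * v ^ 7) * hCC

/-- **Exactness of duplication**, polynomial form. -/
theorem max_natDegree_dup (hrel : 4 * b₈ = b₂ * b₆ - b₄ ^ 2)
    (hΔ : -b₂ ^ 2 * b₈ - 8 * b₄ ^ 3 - 27 * b₆ ^ 2 + 9 * b₂ * b₄ * b₆ ≠ 0) {u v : k[X]}
    (hv : v ≠ 0) :
    max (dupNumH b₄ b₆ b₈ u v).natDegree (dupDenH b₂ b₄ b₆ u v).natDegree =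
      4 * max u.natDegree v.natDegree := by
  set d := max u.natDegree v.natDegree with hd
  have hu' : u.natDegree ≤ d := le_max_left _ _
  have hv' : v.natDegree ≤ d := le_max_right _ _
  apply le_antisymm
  · exact max_le (natDegree_dupNumH_le b₄ b₆ b₈ hu' hv') (natDegree_dupDenH_le b₂ b₄ b₆ hu' hv')
  · have hN := coeff_dupNumH b₄ b₆ b₈ hu' hv'
    have hD := coeff_dupDenH b₂ b₄ b₆ hu' hv'
    by_contra hlt
    rw [not_le, max_lt_iff] at hlt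
    have hN0 : (dupNumH b₄ b₆ b₈ u v).coeff (4 * d) = 0 :=
      coeff_eq_zero_of_natDegree_lt hlt.1
    have hD0 : (dupDenH b₂ b₄ b₆ u v).coeff (4 * d) = 0 :=
      coeff_eq_zero_of_natDegree_lt hlt.2
    rw [hN] at hN0
    rw [hD] at hD0
    have hcert := dup_certificate_const hrel (u.coeff d) (v.coeff d)
    rw [hN0, hD0, mul_zero, mul_zero, sub_zero] at hcert
    have hz : v.coeff d = 0 := by
      have := hcert.symm
      rcases mul_eq_zero.mp this with h | h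
      · exact absurd h hΔ
      · exact pow_eq_zero_iff (by norm_num) |>.mp h
    have hx : u.coeff d = 0 := by
      rw [hz] at hN0
      have : u.coeff d ^ 4 = 0 := by
        linear_combination hN0
      exact pow_eq_zero_iff (by norm_num) |>.mp this
    rcases top_coeff_ne_zero (u := u) hv with h | h
    · exact h hx
    · exact h hz

lemma algebraMap_dupNumH (ξ : RatFunc k) :
    algebraMap k[X] (RatFunc k) (dupNumH b₄ b₆ b₈ ξ.num ξ.denom) =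
      algebraMap k[X] (RatFunc k) ξ.denom ^ 4 *
        (ξ ^ 4 - RatFunc.C b₄ * ξ ^ 2 - 2 * RatFunc.C b₆ * ξ - RatFunc.C b₈) := by
  have e := mul_denom_eq_num ξ
  unfold dupNumH
  simp only [map_sub, map_mul, map_pow, RatFunc.algebraMap_C, map_one, map_ofNat, ← e]
  ring

lemma algebraMap_dupDenH (ξ : RatFunc k) :
    algebraMap k[X] (RatFunc k) (dupDenH b₂ b₄ b₆ ξ.num ξ.denom) =
      algebraMap k[X] (RatFunc k) ξ.denom ^ 4 *
        (4 * ξ ^ 3 + RatFunc.C b₂ * ξ ^ 2 + 2 * RatFunc.C b₄ * ξ + RatFunc.C b₆) := by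
  have e := mul_denom_eq_num ξ
  unfold dupDenH
  simp only [map_add, map_mul, map_pow, RatFunc.algebraMap_C, map_ofNat, ← e]
  ring

/-- **Exactness of duplication** for the degree height. -/
theorem ratDeg_dup (hrel : 4 * b₈ = b₂ * b₆ - b₄ ^ 2)
    (hΔ : -b₂ ^ 2 * b₈ - 8 * b₄ ^ 3 - 27 * b₆ ^ 2 + 9 * b₂ * b₄ * b₆ ≠ 0) {ξ ξ' : RatFunc k}
    (h : ξ' * (4 * ξ ^ 3 + RatFunc.C b₂ * ξ ^ 2 + 2 * RatFunc.C b₄ * ξ + RatFunc.C b₆) =
      ξ ^ 4 - RatFunc.C b₄ * ξ ^ 2 - 2 * RatFunc.C b₆ * ξ - RatFunc.C b₈) :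
    ratDeg ξ' = 4 * ratDeg ξ := by
  have hinj : Function.Injective (algebraMap k[X] (RatFunc k)) :=
    IsFractionRing.injective k[X] (RatFunc k)
  have hcop := isCoprime_dupNumH_dupDenH hrel hΔ (RatFunc.isCoprime_num_denom ξ)
  have hmul : ξ' * algebraMap k[X] (RatFunc k) (dupDenH b₂ b₄ b₆ ξ.num ξ.denom) =
      algebraMap k[X] (RatFunc k) (dupNumH b₄ b₆ b₈ ξ.num ξ.denom) := by
    rw [algebraMap_dupNumH, algebraMap_dupDenH, ← h]
    ring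
  have hD : dupDenH b₂ b₄ b₆ ξ.num ξ.denom ≠ 0 := by
    intro h0
    rw [h0, map_zero, mul_zero] at hmul
    have hN : dupNumH b₄ b₆ b₈ ξ.num ξ.denom = 0 := by
      apply hinj; rw [← hmul, map_zero]
    rw [h0, hN] at hcop
    exact not_isCoprime_zero_zero hcop
  rw [ratDeg_eq_of_mul_eq hD hcop hmul, max_natDegree_dup hrel hΔ (RatFunc.denom_ne_zero ξ),
    ratDeg_def]

/-- A root of the 2-division polynomial is constant. -/
theorem ratDeg_eq_zero_of_dupDen_eq_zero (hrel : 4 * b₈ = b₂ * b₆ - b₄ ^ 2)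
    (hΔ : -b₂ ^ 2 * b₈ - 8 * b₄ ^ 3 - 27 * b₆ ^ 2 + 9 * b₂ * b₄ * b₆ ≠ 0) {ξ : RatFunc k}
    (h : 4 * ξ ^ 3 + RatFunc.C b₂ * ξ ^ 2 + 2 * RatFunc.C b₄ * ξ + RatFunc.C b₆ = 0) :
    ratDeg ξ = 0 := by
  have hinj : Function.Injective (algebraMap k[X] (RatFunc k)) :=
    IsFractionRing.injective k[X] (RatFunc k)
  have hcop := isCoprime_dupNumH_dupDenH hrel hΔ (RatFunc.isCoprime_num_denom ξ)
  have hD : dupDenH b₂ b₄ b₆ ξ.num ξ.denom = 0 := by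
    apply hinj
    rw [algebraMap_dupDenH, h, mul_zero, map_zero]
  rw [hD, isCoprime_zero_right] at hcop
  have hmax := max_natDegree_dup (b₈ := b₈) hrel hΔ (u := ξ.num) (RatFunc.denom_ne_zero ξ)
  rw [hD, natDegree_zero, natDegree_eq_zero_of_isUnit hcop] at hmax
  rw [ratDeg_def]
  simp only [max_self] at hmax
  omega

end dup

end Fermat.Agent.H70
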